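import Mathlib

set_option autoImplicit false

/-!
# The inertia field is unramified
-/

namespace Fermat.Agent.SEL

open scoped Pointwise NumberField
open Ideal

section

variable {E : Type*} [Field E] [NumberField E] [IsGalois ℚ E]

/-- The prime below `P` in the inertia field is unramified over `ℤ`. -/
theorem ramificationIdx_inertiaField (P : Ideal (𝓞 E)) [hP : P.IsPrime] (hP0 : P ≠ ⊥)
    (F : IntermediateField ℚ E) (hF : F = IntermediateField.fixedField (P.inertia Gal(E/ℚ))) :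
    (P.under (𝓞 F)).ramificationIdx ℤ = 1 := by
  have hPmax : P.IsMaximal := hP.isMaximal hP0
  have hfix : F.fixingSubgroup = P.inertia Gal(E/ℚ) := by
    rw [hF, IntermediateField.fixingSubgroup_fixedField]
  have hcard : Nat.card (P.inertia Gal(E/ℚ)) = (P.under ℤ).ramificationIdxIn (𝓞 E) :=
    card_inertia_eq_ramificationIdxIn (G := Gal(E/ℚ)) (P.under ℤ) P
  have hGal : IsGaloisGroup Gal(E/F) (𝓞 F) (𝓞 E) := inferInstance
  have hcard2 : Nat.card (P.inertia Gal(E/F)) = (P.under (𝓞 F)).ramificationIdxIn (𝓞 E) :=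
    card_inertia_eq_ramificationIdxIn (G := Gal(E/F)) (P.under (𝓞 F)) P
  have htop : P.inertia Gal(E/F) = ⊤ := by
    rw [eq_top_iff]
    intro g _
    have h1 : (g.restrictScalars ℚ : Gal(E/ℚ)) ∈ F.fixingSubgroup := by
      rw [IntermediateField.mem_fixingSubgroup_iff]
      intro x hx
      exact g.commutes ⟨x, hx⟩
    rw [hfix] at h1
    exact h1
  have hcardG : Nat.card Gal(E/F) = Nat.card (P.inertia Gal(E/ℚ)) := by
    rw [← hfix]
    exact Nat.card_congr (IntermediateField.fixingSubgroupEquiv F).symm.toEquiv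
  rw [htop, Subgroup.card_top, hcardG, hcard,
    ramificationIdxIn_eq_ramificationIdx (P.under ℤ) P Gal(E/ℚ),
    ramificationIdxIn_eq_ramificationIdx (P.under (𝓞 F)) P Gal(E/F)] at hcard2
  have htower := ramificationIdx_tower (R := ℤ) (P.under (𝓞 F)) P
  rw [hcard2] at htower
  have hpos : 0 < P.ramificationIdx (𝓞 F) := by
    exact ramificationIdx_pos P (𝓞 F)
  nlinarith

open IsDedekindDomain

/-- The center of a valuation subring on the ring of integers. -/
noncomputable def cen (B : ValuationSubring E) : Ideal (𝓞 E) :=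
  (IsLocalRing.maximalIdeal B).comap
    ({ toFun := fun x => ⟨(x : E), by
        have h : IsIntegral B (x : E) := (NumberField.RingOfIntegers.isIntegral_coe x).tower_top
        obtain ⟨y, hy⟩ := IsIntegrallyClosed.isIntegral_iff.mp h
        rw [← hy]
        exact y.2⟩
       map_zero' := rfl
       map_one' := rfl
       map_add' := fun _ _ => rfl
       map_mul' := fun _ _ => rfl } : 𝓞 E →+* B)

omit [IsGalois ℚ E] [NumberField E] in
theorem mem_cen {B : ValuationSubring E} {x : 𝓞 E} : x ∈ cen B ↔ B.valuation (x : E) < 1 := by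
  rw [cen, Ideal.mem_comap, ← B.coe_mem_nonunits_iff, ValuationSubring.mem_nonunits_iff]
  rfl

instance (B : ValuationSubring E) : (cen B).IsPrime := Ideal.comap_isPrime _ _

omit [IsGalois ℚ E] [NumberField E] in
theorem valuation_le_one_of_int (B : ValuationSubring E) (x : 𝓞 E) : B.valuation (x : E) ≤ 1 := by
  rw [B.valuation_le_one_iff]
  have h : IsIntegral B (x : E) := (NumberField.RingOfIntegers.isIntegral_coe x).tower_top
  obtain ⟨y, hy⟩ := IsIntegrallyClosed.isIntegral_iff.mp h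
  rw [← hy]
  exact y.2

/-- An element fixed by the inertia group has the valuation of a power of `ℓ`. -/
theorem exists_valuation_eq_zpow (B : ValuationSubring E) {ℓ : ℕ} (hℓ : ℓ.Prime)
    (hB : B.valuation (ℓ : E) < 1) {z : E} (hz : z ≠ 0)
    (hfix : ∀ g : Gal(E/ℚ), (∀ x : 𝓞 E, g • x - x ∈ cen B) → g z = z) :
    ∃ n : ℤ, B.valuation z = B.valuation (ℓ : E) ^ n := by
  set P := cen B with hPdef
  have hℓP : (ℓ : 𝓞 E) ∈ P := mem_cen.mpr (by simpa using hB)
  have hP0 : P ≠ ⊥ := by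
    intro h
    rw [h, Ideal.mem_bot] at hℓP
    exact hℓ.ne_zero (by exact_mod_cast hℓP)
  set F := IntermediateField.fixedField (P.inertia Gal(E/ℚ)) with hF
  have he := ramificationIdx_inertiaField P hP0 F hF
  have hzF : z ∈ F := by
    rw [hF, IntermediateField.mem_fixedField_iff]
    intro g hg
    exact hfix g hg
  set P' := P.under (𝓞 F) with hP'
  have hℓP' : (ℓ : 𝓞 F) ∈ P' := by
    rw [hP', Ideal.under_def, Ideal.mem_comap, map_natCast]
    exact hℓP
  have hP'0 : P' ≠ ⊥ := by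
    intro h
    rw [h, Ideal.mem_bot] at hℓP'
    exact hℓ.ne_zero (by exact_mod_cast hℓP')
  let w : HeightOneSpectrum (𝓞 F) := ⟨P', inferInstance, hP'0⟩
  have hpr : Prime (ℓ : ℤ) := Nat.prime_iff_prime_int.mp hℓ
  let v : HeightOneSpectrum ℤ := ⟨Ideal.span {(ℓ : ℤ)},
    (Ideal.span_singleton_prime hpr.ne_zero).mpr hpr, by
      rw [Ne, Ideal.span_singleton_eq_bot]; exact hpr.ne_zero⟩
  have hunder : w.asIdeal.under ℤ = v.asIdeal := by
    symm
    apply (PrincipalIdealRing.isMaximal_of_irreducible hpr.irreducible).eq_of_le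
    · exact Ideal.IsPrime.ne_top (Ideal.comap_isPrime _ _)
    · rw [Ideal.span_singleton_le_iff_mem, Ideal.mem_comap]
      simpa using hℓP'
  have hlo : w.asIdeal.LiesOver v.asIdeal := ⟨hunder.symm⟩
  have hval := HeightOneSpectrum.valuation_liesOver (K := ℚ) F v w (ℓ : ℚ)
  -- the ramification index is `1`
  have he' : ramificationIdx' v.asIdeal w.asIdeal = 1 := by
    rw [← hunder]
    have hle : (w.asIdeal.under ℤ).map (algebraMap ℤ (𝓞 F)) ≤ w.asIdeal := Ideal.map_comap_le
    rw [IsDedekindDomain.ramificationIdx'_eq_one_iff hP'0 hle]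
    rw [ramificationIdx_def, ENat.toNat_eq_iff_eq_natCast, Nat.cast_one, Module.length_eq_one_iff,
      isSimpleModule_iff_isCoatom, ← Ideal.isMaximal_def, IsLocalRing.isMaximal_iff] at he
    exact he
  rw [he', pow_one] at hval
  have hvℓ : v.valuation ℚ (ℓ : ℚ) = WithZero.exp (-1 : ℤ) := by
    have h1 : v.valuation ℚ (algebraMap ℤ ℚ (ℓ : ℤ)) = v.intValuation (ℓ : ℤ) :=
      HeightOneSpectrum.valuation_of_algebraMap v (ℓ : ℤ)
    have h2 : algebraMap ℤ ℚ (ℓ : ℤ) = (ℓ : ℚ) := by simp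
    rw [← h2, h1]
    exact HeightOneSpectrum.intValuation_singleton v hpr.ne_zero rfl
  have hwℓ : w.valuation F (ℓ : F) = WithZero.exp (-1 : ℤ) := by
    have h1 : algebraMap ℚ F (ℓ : ℚ) = (ℓ : F) := map_natCast _ _
    rw [← hvℓ, hval, h1]
  -- the unit
  set z' : F := ⟨z, hzF⟩ with hz'
  have hz'0 : z' ≠ 0 := fun h => hz (congrArg Subtype.val h)
  have hwz : w.valuation F z' ≠ 0 := (Valuation.ne_zero_iff _).mpr hz'0
  obtain ⟨n, hn⟩ : ∃ n : ℤ, w.valuation F z' = WithZero.exp n :=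
    ⟨_, (WithZero.exp_log hwz).symm⟩
  have hℓF : (ℓ : F) ≠ 0 := Nat.cast_ne_zero.mpr hℓ.ne_zero
  -- comparison of the valuations
  have key : ∀ y : F, w.valuation F y ≤ 1 → B.valuation (y : E) ≤ 1 := by
    intro y hy
    obtain ⟨a, d, hd⟩ := w.exists_primeCompl_mul_eq_of_integer y hy
    have hdP : ((algebraMap (𝓞 F) (𝓞 E)) (d : 𝓞 F)) ∉ P := d.2
    have h2 : ¬ B.valuation (((algebraMap (𝓞 F) (𝓞 E)) (d : 𝓞 F) : 𝓞 E) : E) < 1 :=
      fun h => hdP (mem_cen.mpr h)
    have h3 : B.valuation (((algebraMap (𝓞 F) (𝓞 E)) (d : 𝓞 F) : 𝓞 E) : E) = 1 :=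
      le_antisymm (valuation_le_one_of_int B _) (not_lt.mp h2)
    have h4 := congrArg (fun t : F => B.valuation (t : E)) hd
    have h5 : ((algebraMap (𝓞 F) F (d : 𝓞 F) : F) : E) =
      (((algebraMap (𝓞 F) (𝓞 E)) (d : 𝓞 F) : 𝓞 E) : E) := rfl
    have h6 : ((algebraMap (𝓞 F) F (a : 𝓞 F) : F) : E) =
      (((algebraMap (𝓞 F) (𝓞 E)) (a : 𝓞 F) : 𝓞 E) : E) := rfl
    simp only [IntermediateField.coe_mul, map_mul, h5, h6, h3, mul_one] at h4
    rw [h4]
    exact valuation_le_one_of_int B _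
  have key1 : ∀ y : F, w.valuation F y = 1 → B.valuation (y : E) = 1 := by
    intro y hy
    have hy0 : y ≠ 0 := by
      rintro rfl
      rw [map_zero] at hy
      exact zero_ne_one hy
    refine le_antisymm (key y hy.le) ?_
    have h1 := key y⁻¹ (by rw [map_inv₀, hy, inv_one])
    rw [IntermediateField.coe_inv, map_inv₀] at h1
    have h2 : B.valuation (y : E) ≠ 0 := (Valuation.ne_zero_iff _).mpr (by
      intro h; exact hy0 (Subtype.ext h))
    exact (inv_le_one₀ (zero_lt_iff.mpr h2)).mp h1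
  refine ⟨-n, ?_⟩
  have h7 := key1 (z' * (ℓ : F) ^ n) (by
    rw [map_mul, map_zpow₀, hwℓ, hn, ← WithZero.exp_zsmul, ← WithZero.exp_add]
    simp)
  have h8 : ((z' * (ℓ : F) ^ n : F) : E) = z * (ℓ : E) ^ n := by
    have h9 : algebraMap F E (z' * (ℓ : F) ^ n) = z * (ℓ : E) ^ n := by
      rw [map_mul, map_zpow₀, map_natCast]
      rfl
    exact h9
  rw [h8, map_mul, map_zpow₀] at h7
  rw [zpow_neg]
  exact eq_inv_of_mul_eq_one_left h7

/-- A version in terms of elements of `E`. -/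
theorem exists_valuation_eq_zpow_elem (B : ValuationSubring E) {ℓ : ℕ} (hℓ : ℓ.Prime)
    (hB : B.valuation (ℓ : E) < 1) {z : E} (hz : z ≠ 0)
    (hfix : ∀ g : E ≃ₐ[ℚ] E, (∀ x : E, IsIntegral ℤ x → B.valuation (g x - x) < 1) → g z = z) :
    ∃ n : ℤ, B.valuation z = B.valuation (ℓ : E) ^ n := by
  refine exists_valuation_eq_zpow B hℓ hB hz fun g hg => hfix g fun x hx => ?_
  have h := hg ⟨x, hx⟩
  rw [mem_cen] at h
  exact h

end

section

variable {E : Type*} [Field E]

/-- A version for an arbitrary `ℚ`-algebra structure. -/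
theorem exists_valuation_eq_zpow_inst [CharZero E] (inst : Algebra ℚ E)
    (hfin : @FiniteDimensional ℚ E _ _ inst.toModule) (hgal : IsGalois ℚ E)
    (B : ValuationSubring E) {ℓ : ℕ} (hℓ : ℓ.Prime)
    (hB : B.valuation (ℓ : E) < 1) {z : E} (hz : z ≠ 0)
    (hfix : ∀ g : E ≃ₐ[ℚ] E, (∀ x : E, IsIntegral ℤ x → B.valuation (g x - x) < 1) → g z = z) :
    ∃ n : ℤ, B.valuation z = B.valuation (ℓ : E) ^ n := by
  obtain rfl : inst = DivisionRing.toRatAlgebra := Subsingleton.elim _ _
  have : NumberField E := { to_charZero := inferInstance, to_finiteDimensional := hfin }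
  exact exists_valuation_eq_zpow_elem B hℓ hB hz hfix

end

end Fermat.Agent.SEL
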