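import Mathlib
import Fermat.Agent.SEL.Ram
import Fermat.Agent.ExtVan.LiftInertia
import Fermat.Prelude.Def_FLTPrelim_Ramification

set_option autoImplicit false

/-!
# The fixed field of an inertia group has value group `v(ℓ)^ℤ`
-/

open scoped Pointwise
open Fermat.Agent.Frob

namespace Fermat.Agent.SEL

section Comap

variable {E Ω : Type*} [Field E] [Field Ω] (f : E →+* Ω) (A : ValuationSubring Ω)

theorem comap_valuation_le_one_iff (x : E) :
    (A.comap f).valuation x ≤ 1 ↔ A.valuation (f x) ≤ 1 := by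
  rw [ValuationSubring.valuation_le_one_iff, ValuationSubring.valuation_le_one_iff,
    ValuationSubring.mem_comap]

theorem comap_valuation_eq_one_iff (x : E) :
    (A.comap f).valuation x = 1 ↔ A.valuation (f x) = 1 := by
  by_cases hx : x = 0
  · simp [hx]
  have h1 : (A.comap f).valuation x ≠ 0 := (Valuation.ne_zero_iff _).mpr hx
  have h2 : A.valuation (f x) ≠ 0 :=
    (Valuation.ne_zero_iff _).mpr ((map_ne_zero f).mpr hx)
  have h3 := comap_valuation_le_one_iff f A x
  have h4 := comap_valuation_le_one_iff f A x⁻¹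
  rw [map_inv₀, map_inv₀, map_inv₀, inv_le_one₀ (zero_lt_iff.mpr h1),
    inv_le_one₀ (zero_lt_iff.mpr h2)] at h4
  rw [le_antisymm_iff, le_antisymm_iff, h3, h4]

theorem comap_valuation_lt_one_iff (x : E) :
    (A.comap f).valuation x < 1 ↔ A.valuation (f x) < 1 := by
  rw [lt_iff_le_and_ne, lt_iff_le_and_ne, comap_valuation_le_one_iff, Ne, Ne,
    comap_valuation_eq_one_iff]

end Comap

-- use the algebra structures coming from `Ω`
attribute [-instance] DivisionRing.toRatAlgebra

variable {Ω : Type*} [Field Ω] [Algebra ℚ Ω] [IsGalois ℚ Ω]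

/-- (V) an element fixed by the inertia group at `A` has the valuation of a power of `ℓ`. -/
theorem exists_valuation_zpow_of_inertia (A : ValuationSubring Ω) {ℓ : ℕ} (hℓ : ℓ.Prime)
    (hA : A.LiesOverPrime ℓ) {z : Ω} (hz : z ≠ 0)
    (hfix : ∀ g ∈ A.inertiaSubgroupIn ℚ, g z = z) :
    ∃ n : ℤ, A.valuation z = A.valuation (ℓ : Ω) ^ n := by
  let E : IntermediateField ℚ Ω := IntermediateField.normalClosure ℚ (IntermediateField.adjoin ℚ {z}) Ω
  have hint : IsIntegral ℚ z := Algebra.IsIntegral.isIntegral z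
  have hfd : FiniteDimensional ℚ (IntermediateField.adjoin ℚ {z}) :=
    IntermediateField.adjoin.finiteDimensional hint
  have hE : FiniteDimensional ℚ E := inferInstance
  have hEn : Normal ℚ E := inferInstance
  have hEg : IsGalois ℚ E := {}
  have hzE : z ∈ E := by
    have h1 : IntermediateField.adjoin ℚ {z} ≤ E := by
      exact IntermediateField.le_normalClosure _
    exact h1 (IntermediateField.mem_adjoin_simple_self ℚ z)
  have hchar : CharZero E := charZero_of_injective_algebraMap (algebraMap ℚ E).injective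
  have hcharΩ : CharZero Ω := charZero_of_injective_algebraMap (algebraMap ℚ Ω).injective
  let B : ValuationSubring E := A.comap (algebraMap E Ω)
  have hℓA : A.valuation (ℓ : Ω) < 1 := by
    have h : (ℓ : Ω) ∈ A.nonunits := hA
    rwa [ValuationSubring.mem_nonunits_iff] at h
  have hB : B.valuation (ℓ : E) < 1 := by
    rw [comap_valuation_lt_one_iff, map_natCast]
    exact hℓA
  have hz' : (⟨z, hzE⟩ : E) ≠ 0 := fun h => hz (congrArg Subtype.val h)
  obtain ⟨n, hn⟩ := exists_valuation_eq_zpow_inst (IntermediateField.algebra' E) hE hEg B hℓ hB hz' (by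
    intro g hg
    let σ₀ : Ω ≃ₐ[ℚ] Ω := g.liftNormal Ω
    have hσ₀ : ∀ x : E, σ₀ (x : Ω) = (g x : E) := fun x => g.liftNormal_commutes Ω x
    obtain ⟨σ, hσ, hσE⟩ := ExtVan.exists_lift_inertia E hℓ hA σ₀ (by
      intro x hx
      rw [mem_center_iff, ValuationSubring.mem_nonunits_iff]
      have h1 := hg ⟨(x : Ω), hx⟩ (by
        have h2 : IsIntegral ℤ (x : Ω) := x.2
        have h3 : IsIntegral ℤ (algebraMap E Ω ⟨(x : Ω), hx⟩) := h2
        exact (isIntegral_algebraMap_iff (algebraMap E Ω).injective).mp h3)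
      rw [comap_valuation_lt_one_iff] at h1
      have h4 : ((σ₀ • x - x : integralClosure ℤ Ω) : Ω) = algebraMap E Ω (g ⟨(x : Ω), hx⟩ - ⟨(x : Ω), hx⟩) := by
        rw [map_sub]
        have := hσ₀ ⟨(x : Ω), hx⟩
        exact congrArg (fun t => t - (x : Ω)) this
      rw [h4]
      exact h1)
    have h5 := hfix σ hσ
    rw [hσE z hzE] at h5
    apply Subtype.ext
    have h6 := hσ₀ ⟨z, hzE⟩
    rw [← h6]
    exact h5)
  refine ⟨n, ?_⟩
  have hℓE : (ℓ : E) ≠ 0 := Nat.cast_ne_zero.mpr hℓ.ne_zero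
  have hBℓ : B.valuation (ℓ : E) ≠ 0 := (Valuation.ne_zero_iff _).mpr hℓE
  have h7 : B.valuation (⟨z, hzE⟩ * ((ℓ : E) ^ n)⁻¹) = 1 := by
    rw [map_mul, map_inv₀, map_zpow₀, hn, mul_inv_cancel₀ (zpow_ne_zero _ hBℓ)]
  rw [comap_valuation_eq_one_iff, map_mul, map_inv₀, map_zpow₀, map_natCast] at h7
  have h8 : algebraMap E Ω ⟨z, hzE⟩ = z := rfl
  rw [h8, map_mul, map_inv₀, map_zpow₀] at h7
  have hAℓ : A.valuation (ℓ : Ω) ≠ 0 := (Valuation.ne_zero_iff _).mpr (Nat.cast_ne_zero.mpr hℓ.ne_zero)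
  exact (mul_inv_eq_one₀ (zpow_ne_zero _ hAℓ)).mp h7

end Fermat.Agent.SEL
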