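import Mathlib
import Fermat.Agent.ExtVan.LiftInertia
import Fermat.Agent.Mink.Lift
import Fermat.Prelude.Def_FLTPrelim_Ramification

set_option autoImplicit false

/-!
# Conjugation of inertia groups; Minkowski's theorem for arbitrary open subgroups
-/

open scoped Pointwise
open Fermat.Agent.Frob

namespace Fermat.Agent.SEL

variable {Ω : Type*} [Field Ω] [Algebra ℚ Ω]

theorem smul_eq_of_mem_inertia {A : ValuationSubring Ω} {σ : Ω ≃ₐ[ℚ] Ω}
    (hσ : σ ∈ A.inertiaSubgroupIn ℚ) : σ • A = A := by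
  obtain ⟨⟨σ, hσD⟩, hσI, rfl⟩ := hσ
  exact hσD

theorem mem_decomposition_of_mem_inertia {A : ValuationSubring Ω} {σ : Ω ≃ₐ[ℚ] Ω}
    (hσ : σ ∈ A.inertiaSubgroupIn ℚ) : σ ∈ A.decompositionSubgroup ℚ :=
  smul_eq_of_mem_inertia hσ

theorem smul_sub_mem_center_of_mem_inertia {A : ValuationSubring Ω} {σ : Ω ≃ₐ[ℚ] Ω}
    (hσ : σ ∈ A.inertiaSubgroupIn ℚ) (b : integralClosure ℤ Ω) : σ • b - b ∈ center A := by
  obtain ⟨⟨σ, hσD⟩, hσI, rfl⟩ := hσ
  have h : (⟨σ, hσD⟩ : A.decompositionSubgroup ℚ) •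
      (IsLocalRing.residue A (toVal A b)) = IsLocalRing.residue A (toVal A b) := by
    have := MonoidHom.mem_ker.mp (SetLike.mem_coe.mp hσI)
    exact DFunLike.congr_fun this _
  rw [← IsLocalRing.ResidueField.residue_smul, smul_toVal,
    ← sub_eq_zero, ← map_sub, ← map_sub, IsLocalRing.residue_eq_zero_iff] at h
  exact h

variable [IsGalois ℚ Ω]

theorem liesOverPrime_smul {A : ValuationSubring Ω} {ℓ : ℕ}
    (hA : A.LiesOverPrime ℓ) (t : Ω ≃ₐ[ℚ] Ω) : (t • A).LiesOverPrime ℓ := by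
  rw [← natCast_mem_center_iff, center_smul, Ideal.mem_pointwise_smul_iff_inv_smul_mem]
  have h : t⁻¹ • (ℓ : integralClosure ℤ Ω) = ℓ :=
    map_natCast (MulSemiringAction.toRingHom (Ω ≃ₐ[ℚ] Ω) (integralClosure ℤ Ω) t⁻¹) ℓ
  rw [h, natCast_mem_center_iff]
  exact hA

/-- the inertia group of a conjugate place -/
theorem conj_mem_inertia {A : ValuationSubring Ω} {ℓ : ℕ} (hℓ : ℓ.Prime)
    (hA : A.LiesOverPrime ℓ) {s t : Ω ≃ₐ[ℚ] Ω} (hs : s ∈ (t • A).inertiaSubgroupIn ℚ) :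
    t⁻¹ * s * t ∈ A.inertiaSubgroupIn ℚ := by
  apply ExtVan.mem_inertiaSubgroupIn_of hℓ hA
  · have h := smul_eq_of_mem_inertia hs
    rw [mul_smul, mul_smul, h, inv_smul_smul]
  · intro b
    have h := smul_sub_mem_center_of_mem_inertia hs (t • b)
    rw [center_smul, Ideal.mem_pointwise_smul_iff_inv_smul_mem, smul_sub, inv_smul_smul] at h
    rw [mul_smul, mul_smul]
    exact h

/-- every place over `ℓ` has inertia group conjugate to that of a given one -/
theorem exists_conj_inertia {A A' : ValuationSubring Ω} {ℓ : ℕ} (hℓ : ℓ.Prime)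
    (hA : A.LiesOverPrime ℓ) (hA' : A'.LiesOverPrime ℓ) :
    ∃ t : Ω ≃ₐ[ℚ] Ω, ∀ s ∈ A'.inertiaSubgroupIn ℚ, t⁻¹ * s * t ∈ A.inertiaSubgroupIn ℚ := by
  obtain ⟨t, rfl⟩ := exists_smul_eq hℓ hA hA'
  exact ⟨t, fun s hs => conj_mem_inertia hℓ hA hs⟩

/-- conjugates of inertia elements are inertia elements for the conjugate place -/
theorem mem_inertia_smul {A : ValuationSubring Ω} {ℓ : ℕ} (hℓ : ℓ.Prime)
    (hA : A.LiesOverPrime ℓ) {s : Ω ≃ₐ[ℚ] Ω} (t : Ω ≃ₐ[ℚ] Ω) (hs : s ∈ A.inertiaSubgroupIn ℚ) :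
    t * s * t⁻¹ ∈ (t • A).inertiaSubgroupIn ℚ := by
  apply ExtVan.mem_inertiaSubgroupIn_of hℓ (liesOverPrime_smul hA t)
  · have h := smul_eq_of_mem_inertia hs
    rw [mul_smul, mul_smul, inv_smul_smul, h]
  · intro b
    have h := smul_sub_mem_center_of_mem_inertia hs (t⁻¹ • b)
    rw [center_smul, Ideal.mem_pointwise_smul_iff_inv_smul_mem, smul_sub, mul_smul, mul_smul,
      inv_smul_smul]
    exact h

-- use the algebra structures coming from `Ω`
attribute [-instance] DivisionRing.toRatAlgebra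

/-- Minkowski: an open subgroup containing all inertia groups is everything. -/
theorem eq_top_of_inertia (H : Subgroup (Ω ≃ₐ[ℚ] Ω))
    (hE : ∃ E : IntermediateField ℚ Ω, FiniteDimensional ℚ E ∧ E.fixingSubgroup ≤ H)
    (hin : ∀ ℓ : ℕ, ℓ.Prime → ∀ A : ValuationSubring Ω, A.LiesOverPrime ℓ →
      A.inertiaSubgroupIn ℚ ≤ H) : H = ⊤ := by
  obtain ⟨E, hfin, hEH⟩ := hE
  have hE' : FiniteDimensional ℚ (IntermediateField.normalClosure ℚ E Ω) := inferInstance
  have h1 := Mink.eq_top_of_inertia_le' H.normalCore (IntermediateField.normalClosure ℚ E Ω) (by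
    have hle : (IntermediateField.normalClosure ℚ E Ω).fixingSubgroup ≤ H :=
      (IntermediateField.fixingSubgroup_antitone (IntermediateField.le_normalClosure E)).trans hEH
    have hn : (IntermediateField.normalClosure ℚ E Ω).fixingSubgroup.Normal := inferInstance
    exact Subgroup.normal_le_normalCore.mpr hle) (by
    intro ℓ hℓ A hA s hs t
    exact hin ℓ hℓ (t • A) (liesOverPrime_smul hA t) (mem_inertia_smul hℓ hA t hs))
  exact top_le_iff.mp (h1 ▸ Subgroup.normalCore_le H)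

end Fermat.Agent.SEL
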