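import Mathlib
import Fermat.Agent.SEL.Val
import Fermat.Agent.SEL.Inertia
import Fermat.Agent.Frob.Exists

set_option autoImplicit false

/-!
# Hilbert 90 and the Kummer classes with divisible valuations
-/

open scoped Pointwise
open Fermat.Agent.Frob

namespace Fermat.Agent.SEL

-- use the algebra structures coming from `Ω`
attribute [-instance] DivisionRing.toRatAlgebra

variable {Ω : Type*} [Field Ω] [Algebra ℚ Ω] [IsGalois ℚ Ω]

/-- Hilbert 90 for continuous cocycles of the Galois group of `Ω/ℚ`. -/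
theorem hilbert90 (g : (Ω ≃ₐ[ℚ] Ω) → Ωˣ)
    (hg : ∀ s t, g (s * t) = g s * s • g t)
    (hc : ∃ E : IntermediateField ℚ Ω, FiniteDimensional ℚ E ∧ ∀ s ∈ E.fixingSubgroup, g s = 1) :
    ∃ β : Ωˣ, ∀ s, g s = s • β / β := by
  obtain ⟨E₀, hfin, hE₀⟩ := hc
  let E : IntermediateField ℚ Ω := IntermediateField.normalClosure ℚ E₀ Ω
  have hEfin : FiniteDimensional ℚ E := inferInstance
  have hEn : Normal ℚ E := inferInstance
  have hle : E.fixingSubgroup ≤ E₀.fixingSubgroup :=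
    IntermediateField.fixingSubgroup_antitone (IntermediateField.le_normalClosure E₀)
  have hE : ∀ s ∈ E.fixingSubgroup, g s = 1 := fun s hs => hE₀ s (hle hs)
  have hN : E.fixingSubgroup.Normal := inferInstance
  -- `g` only depends on the restriction to `E`
  have hdep : ∀ s t : Ω ≃ₐ[ℚ] Ω, (∀ x : E, s (x : Ω) = t x) → g s = g t := by
    intro s t hst
    have h1 : s⁻¹ * t ∈ E.fixingSubgroup := by
      rw [IntermediateField.mem_fixingSubgroup_iff]
      intro x hx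
      rw [AlgEquiv.mul_apply, ← hst ⟨x, hx⟩]
      exact s.symm_apply_apply x
    have h2 : t = s * (s⁻¹ * t) := by group
    rw [h2, hg, hE _ h1, smul_one, mul_one]
  -- the values of `g` lie in `E`
  have hval : ∀ s, ((g s : Ωˣ) : Ω) ∈ E := by
    intro s
    rw [← InfiniteGalois.fixedField_fixingSubgroup E, IntermediateField.mem_fixedField_iff]
    intro t ht
    have h1 : g (t * s) = t • g s := by rw [hg, hE t ht, one_mul]
    have h2 : g (t * s) = g s := by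
      have h3 : t * s = s * (s⁻¹ * t * s⁻¹⁻¹) := by group
      rw [h3, hg, hE _ (hN.conj_mem t ht s⁻¹), smul_one, mul_one]
    rw [h1] at h2
    exact congrArg Units.val h2
  let gE : (Ω ≃ₐ[ℚ] Ω) → Eˣ := fun s =>
    Units.mk0 ⟨((g s : Ωˣ) : Ω), hval s⟩ (fun h => (g s).ne_zero (congrArg Subtype.val h))
  let F : (E ≃ₐ[ℚ] E) → Eˣ := fun τ => gE (τ.liftNormal Ω)
  have hlift : ∀ (τ : E ≃ₐ[ℚ] E) (x : E), (τ.liftNormal Ω) (x : Ω) = (τ x : E) :=
    fun τ x => τ.liftNormal_commutes Ω x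
  have hF : groupCohomology.IsMulCocycle₁ F := by
    intro σ τ
    have h1 : g ((σ * τ).liftNormal Ω) = g (σ.liftNormal Ω * τ.liftNormal Ω) := by
      apply hdep
      intro x
      rw [hlift, AlgEquiv.mul_apply, AlgEquiv.mul_apply, hlift, hlift]
    apply Units.ext
    apply Subtype.ext
    show ((g ((σ * τ).liftNormal Ω) : Ωˣ) : Ω) =
      ((σ ⟨((g (τ.liftNormal Ω) : Ωˣ) : Ω), hval _⟩ : E) : Ω) * ((g (σ.liftNormal Ω) : Ωˣ) : Ω)
    rw [h1, hg, mul_comm, Units.val_mul, ← hlift]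
    rfl
  obtain ⟨b, hb⟩ := groupCohomology.isMulCoboundary₁_of_isMulCocycle₁_of_aut_to_units F hF
  refine ⟨Units.map (algebraMap E Ω : E →* Ω) b, fun s => ?_⟩
  let τ : E ≃ₐ[ℚ] E := AlgEquiv.restrictNormal s E
  have hτ : ∀ x : E, ((τ x : E) : Ω) = s (x : Ω) := fun x => s.restrictNormal_commutes E x
  have h1 : g s = g (τ.liftNormal Ω) := by
    apply hdep
    intro x
    rw [hlift, hτ]
  have h2 := hb τ
  rw [div_eq_iff_eq_mul] at h2
  have h3 := congrArg (fun u : Eˣ => ((u : E) : Ω)) h2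
  rw [eq_div_iff_mul_eq', h1]
  apply Units.ext
  rw [Units.val_mul]
  have h4 : (((τ • b : Eˣ) : E) : Ω) = s ((b : E) : Ω) := hτ b
  have h5 : (((F τ * b : Eˣ) : E) : Ω) = ((g (τ.liftNormal Ω) : Ωˣ) : Ω) * ((b : E) : Ω) := rfl
  simp only [h4, h5] at h3
  have h6 : ((s • Units.map (algebraMap E Ω : E →* Ω) b : Ωˣ) : Ω) = s ((b : E) : Ω) := rfl
  rw [h6, h3]
  rfl

omit [IsGalois ℚ Ω] in
theorem charZero_of_algebra : CharZero Ω := charZero_of_injective_algebraMap (algebraMap ℚ Ω).injective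

omit [Algebra ℚ Ω] [IsGalois ℚ Ω] in
theorem valuation_lt_one {A : ValuationSubring Ω} {ℓ : ℕ} (hA : A.LiesOverPrime ℓ) :
    A.valuation (ℓ : Ω) < 1 := by
  have h : (ℓ : Ω) ∈ A.nonunits := hA
  rwa [ValuationSubring.mem_nonunits_iff] at h

omit [Algebra ℚ Ω] [IsGalois ℚ Ω] in
theorem valuation_natCast_le_one (A : ValuationSubring Ω) (n : ℕ) : A.valuation (n : Ω) ≤ 1 := by
  rw [ValuationSubring.valuation_le_one_iff]
  exact natCast_mem _ _

omit [Algebra ℚ Ω] [IsGalois ℚ Ω] in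
theorem valuation_natCast_eq_one {A : ValuationSubring Ω} {ℓ : ℕ} (hA : A.LiesOverPrime ℓ)
    {n : ℕ} (hn : n.Coprime ℓ) : A.valuation (n : Ω) = 1 := by
  refine le_antisymm (valuation_natCast_le_one A n) (not_lt.mp fun h => ?_)
  have h1 : IsCoprime (n : ℤ) (ℓ : ℤ) := Nat.isCoprime_iff_coprime.mpr hn
  obtain ⟨a, b, hab⟩ := h1
  have h2 : (a : Ω) * n + b * ℓ = 1 := by exact_mod_cast congrArg (Int.cast : ℤ → Ω) hab
  have hint : ∀ c : ℤ, A.valuation (c : Ω) ≤ 1 := fun c => by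
    rw [ValuationSubring.valuation_le_one_iff]
    exact intCast_mem _ _
  have h3 : A.valuation ((a : Ω) * n + b * ℓ) < 1 := by
    refine lt_of_le_of_lt (Valuation.map_add _ _ _) (max_lt ?_ ?_)
    · rw [map_mul]
      exact lt_of_le_of_lt (mul_le_of_le_one_left' (hint a)) h
    · rw [map_mul]
      exact lt_of_le_of_lt (mul_le_of_le_one_left' (hint b)) (valuation_lt_one hA)
  rw [h2, map_one] at h3
  exact lt_irrefl _ h3

omit [Algebra ℚ Ω] [IsGalois ℚ Ω] in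
theorem valuation_natCast {A : ValuationSubring Ω} {ℓ : ℕ} (hℓ : ℓ.Prime) (hA : A.LiesOverPrime ℓ)
    {n : ℕ} (hn : n ≠ 0) : A.valuation (n : Ω) = A.valuation (ℓ : Ω) ^ (n.factorization ℓ) := by
  have h := Nat.ordProj_mul_ordCompl_eq_self n ℓ
  have hcop : (n / ℓ ^ n.factorization ℓ).Coprime ℓ :=
    (Nat.coprime_ordCompl hℓ hn).symm
  conv_lhs => rw [← h]
  rw [Nat.cast_mul, map_mul, valuation_natCast_eq_one hA hcop, mul_one, Nat.cast_pow, map_pow]

theorem nat_eq_pow {q : ℕ} (hq : q ≠ 0) {n : ℕ} (hn : n ≠ 0)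
    (h : ∀ ℓ : ℕ, ℓ.Prime → q ∣ n.factorization ℓ) : ∃ m : ℕ, n = m ^ q := by
  refine ⟨Nat.floorRoot q n, Nat.eq_of_factorization_eq hn
    (pow_ne_zero _ (Nat.floorRoot_ne_zero.mpr ⟨hq, hn⟩)) fun ℓ => ?_⟩
  rw [Nat.factorization_pow, Nat.factorization_floorRoot]
  by_cases hℓ : ℓ.Prime
  · obtain ⟨k, hk⟩ := h ℓ hℓ
    simp [hk, Nat.pos_of_ne_zero hq]
  · simp [Nat.factorization_eq_zero_of_not_prime n hℓ]

omit [IsGalois ℚ Ω] in
/-- a rational number all of whose valuations are divisible by `q` -/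
theorem rat_eq_pow {q : ℕ} (hq : q ≠ 0) {a : ℚ} (ha : a ≠ 0)
    (h : ∀ ℓ : ℕ, ℓ.Prime → ∃ A : ValuationSubring Ω, A.LiesOverPrime ℓ ∧
      ∃ n : ℤ, A.valuation (algebraMap ℚ Ω a) = A.valuation (ℓ : Ω) ^ (q * n)) :
    ∃ b : ℚ, b ≠ 0 ∧ (a = b ^ q ∨ a = - b ^ q) := by
  have hchar : CharZero Ω := charZero_of_algebra
  have hnum : a.num.natAbs ≠ 0 := Int.natAbs_ne_zero.mpr (Rat.num_ne_zero.mpr ha)
  have hden : a.den ≠ 0 := a.den_nz
  have hval : ∀ A : ValuationSubring Ω, A.valuation (algebraMap ℚ Ω a) * A.valuation (a.den : Ω) =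
      A.valuation (a.num.natAbs : Ω) := by
    intro A
    rw [← map_mul]
    have h1 : algebraMap ℚ Ω a * (a.den : Ω) = (a.num : Ω) := by
      have h2 := congrArg (algebraMap ℚ Ω) (Rat.mul_den_eq_num a)
      rw [map_mul, map_natCast, map_intCast] at h2
      exact h2
    rw [h1]
    rcases Int.natAbs_eq a.num with h3 | h3
    · conv_lhs => rw [h3]
      rw [Int.cast_natCast]
    · conv_lhs => rw [h3]
      rw [Int.cast_neg, Int.cast_natCast, Valuation.map_neg]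
  have key : ∀ ℓ : ℕ, ℓ.Prime → q ∣ a.num.natAbs.factorization ℓ ∧ q ∣ a.den.factorization ℓ := by
    intro ℓ hℓ
    obtain ⟨A, hA, n, hn⟩ := h ℓ hℓ
    have h1 := hval A
    rw [hn, valuation_natCast hℓ hA hden, valuation_natCast hℓ hA hnum] at h1
    have hv0 : A.valuation (ℓ : Ω) ≠ 0 :=
      (Valuation.ne_zero_iff _).mpr (Nat.cast_ne_zero.mpr hℓ.ne_zero)
    rw [← zpow_natCast, ← zpow_natCast, ← zpow_add₀ hv0] at h1
    have hinj : (q * n + a.den.factorization ℓ : ℤ) = a.num.natAbs.factorization ℓ := by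
      have hv1 := valuation_lt_one hA
      exact zpow_right_injective₀ (zero_lt_iff.mpr hv0) hv1.ne h1
    have hcop := a.reduced
    by_cases hd : ℓ ∣ a.den
    · have hnd : ¬ ℓ ∣ a.num.natAbs := fun h2 =>
        hℓ.one_lt.ne' (Nat.dvd_one.mp (hcop ▸ Nat.dvd_gcd h2 hd))
      have h3 : a.num.natAbs.factorization ℓ = 0 := Nat.factorization_eq_zero_of_not_dvd hnd
      rw [h3] at hinj ⊢
      refine ⟨dvd_zero _, ?_⟩
      have h4 : (q : ℤ) ∣ (a.den.factorization ℓ : ℤ) := ⟨-n, by push_cast at hinj; linarith⟩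
      exact_mod_cast h4
    · have h3 : a.den.factorization ℓ = 0 := Nat.factorization_eq_zero_of_not_dvd hd
      rw [h3] at hinj ⊢
      refine ⟨?_, dvd_zero _⟩
      have h4 : (q : ℤ) ∣ (a.num.natAbs.factorization ℓ : ℤ) := ⟨n, by push_cast at hinj; linarith⟩
      exact_mod_cast h4
  obtain ⟨x, hx⟩ := nat_eq_pow hq hnum fun ℓ hℓ => (key ℓ hℓ).1
  obtain ⟨y, hy⟩ := nat_eq_pow hq hden fun ℓ hℓ => (key ℓ hℓ).2
  have hx0 : x ≠ 0 := by
    rintro rfl
    rw [zero_pow hq] at hx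
    exact hnum hx
  have hy0 : y ≠ 0 := by
    rintro rfl
    rw [zero_pow hq] at hy
    exact hden hy
  refine ⟨(x : ℚ) / y, div_ne_zero (Nat.cast_ne_zero.mpr hx0) (Nat.cast_ne_zero.mpr hy0), ?_⟩
  have hdenq : (a.den : ℚ) = (y : ℚ) ^ q := by exact_mod_cast hy
  have ha' : a = a.num / a.den := (Rat.num_div_den a).symm
  rcases Int.natAbs_eq a.num with h3 | h3
  · left
    have : (a.num : ℚ) = (x : ℚ) ^ q := by rw [h3, hx]; push_cast; rfl
    rw [div_pow, ← hdenq, ← this]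
    exact ha'
  · right
    have : (a.num : ℚ) = - (x : ℚ) ^ q := by rw [h3, hx]; push_cast; rfl
    rw [div_pow, ← hdenq, ← neg_div, ← this]
    exact ha'

/-- Kummer step: a continuous cocycle with values in `μ_q` whose class has all valuations
divisible by `q` comes from a root of unity of order dividing `2q`. -/
theorem kummer_step {q : ℕ} (hq : q.Prime) (g : (Ω ≃ₐ[ℚ] Ω) → Ωˣ)
    (hg : ∀ s t, g (s * t) = g s * s • g t) (hgq : ∀ s, g s ^ q = 1)
    (hc : ∃ E : IntermediateField ℚ Ω, FiniteDimensional ℚ E ∧ ∀ s ∈ E.fixingSubgroup, g s = 1)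
    (hval : ∀ ℓ : ℕ, ℓ.Prime → ∃ A : ValuationSubring Ω, A.LiesOverPrime ℓ ∧
      ∃ u : Ωˣ, A.valuation (u : Ω) = 1 ∧ ∀ s ∈ A.inertiaSubgroupIn ℚ, g s = s • u / u) :
    ∃ ζ : Ωˣ, ζ ^ (2 * q) = 1 ∧ ∀ s, g s = s • ζ / ζ := by
  have hchar : CharZero Ω := charZero_of_algebra
  obtain ⟨β, hβ⟩ := hilbert90 g hg hc
  -- `β ^ q` is rational
  have hfix : ∀ s : Ω ≃ₐ[ℚ] Ω, s ((β : Ω) ^ q) = (β : Ω) ^ q := by
    intro s
    have h1 := hgq s
    rw [hβ s, div_pow, div_eq_one] at h1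
    have h2 := congrArg Units.val h1
    rw [Units.val_pow_eq_pow_val, Units.val_pow_eq_pow_val] at h2
    rw [map_pow]
    exact h2
  obtain ⟨a, ha⟩ : ∃ a : ℚ, algebraMap ℚ Ω a = (β : Ω) ^ q := by
    have h1 := (InfiniteGalois.mem_range_algebraMap_iff_fixed (k := ℚ) ((β : Ω) ^ q)).mpr hfix
    exact h1
  have ha0 : a ≠ 0 := by
    rintro rfl
    rw [map_zero] at ha
    exact pow_ne_zero q β.ne_zero ha.symm
  obtain ⟨b, hb0, hb⟩ := rat_eq_pow (Ω := Ω) hq.ne_zero ha0 (by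
    intro ℓ hℓ
    obtain ⟨A, hA, u, hu1, hu⟩ := hval ℓ hℓ
    refine ⟨A, hA, ?_⟩
    obtain ⟨n, hn⟩ := exists_valuation_zpow_of_inertia A hℓ hA (z := ((β / u : Ωˣ) : Ω))
      (Units.ne_zero _) (by
        intro s hs
        have h1 : s • (β / u) = β / u := by
          have h2 := hβ s
          rw [hu s hs] at h2
          rw [smul_div', div_eq_div_iff_mul_eq_mul]
          rw [div_eq_div_iff_mul_eq_mul] at h2
          rw [← h2, mul_comm]
        exact congrArg Units.val h1)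
    refine ⟨n, ?_⟩
    rw [Units.val_div_eq_div_val, map_div₀, hu1, div_one] at hn
    rw [ha, map_pow, hn, ← zpow_natCast, ← zpow_mul, mul_comm n])
  have hbΩ : algebraMap ℚ Ω b ≠ 0 := (map_ne_zero _).mpr hb0
  let b' : Ωˣ := Units.mk0 (algebraMap ℚ Ω b) hbΩ
  have hb'fix : ∀ s : Ω ≃ₐ[ℚ] Ω, s • b' = b' := by
    intro s
    apply Units.ext
    exact s.commutes b
  refine ⟨β / b', ?_, fun s => ?_⟩
  · apply Units.ext
    rw [pow_mul']
    rw [Units.val_pow_eq_pow_val, Units.val_pow_eq_pow_val, Units.val_div_eq_div_val, div_pow, ← ha]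
    show (algebraMap ℚ Ω a / algebraMap ℚ Ω b ^ q) ^ 2 = 1
    rcases hb with h | h
    · rw [h, map_pow, div_self (pow_ne_zero _ hbΩ), one_pow]
    · rw [h, map_neg, map_pow, neg_div, div_self (pow_ne_zero _ hbΩ)]
      norm_num
  · rw [smul_div', hb'fix, hβ s, div_div_div_cancel_right]

omit [IsGalois ℚ Ω] in
/-- at most `q` cocycles of this kind -/
theorem finite_kummer {q : ℕ} (hq : q.Prime) :
    (Set.range fun ζ : rootsOfUnity (2 * q) Ω => fun s : Ω ≃ₐ[ℚ] Ω =>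
      s • (ζ : Ωˣ) / (ζ : Ωˣ)).Finite ∧
    Nat.card (Set.range fun ζ : rootsOfUnity (2 * q) Ω => fun s : Ω ≃ₐ[ℚ] Ω =>
      s • (ζ : Ωˣ) / (ζ : Ωˣ)) ≤ q := by
  have hchar : CharZero Ω := charZero_of_algebra
  have hne : NeZero (2 * q) := ⟨mul_ne_zero two_ne_zero hq.ne_zero⟩
  let φ : rootsOfUnity (2 * q) Ω →* ((Ω ≃ₐ[ℚ] Ω) → Ωˣ) :=
    { toFun := fun ζ s => s • (ζ : Ωˣ) / (ζ : Ωˣ)
      map_one' := by
        funext s
        simp
      map_mul' := by
        intro x y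
        funext s
        simp only [Subgroup.coe_mul, smul_mul', Pi.mul_apply]
        exact mul_div_mul_comm _ _ _ _ }
  have hset : (Set.range fun ζ : rootsOfUnity (2 * q) Ω => fun s : Ω ≃ₐ[ℚ] Ω =>
      s • (ζ : Ωˣ) / (ζ : Ωˣ)) = (φ.range : Set ((Ω ≃ₐ[ℚ] Ω) → Ωˣ)) := by
    rw [MonoidHom.coe_range]
    rfl
  rw [hset]
  have hfinR : Finite (rootsOfUnity (2 * q) Ω) := inferInstance
  refine ⟨by rw [MonoidHom.coe_range]; exact Set.finite_range _, ?_⟩
  have hcard : Nat.card (rootsOfUnity (2 * q) Ω) = Nat.card φ.ker * Nat.card φ.range := by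
    rw [← Subgroup.card_mul_index φ.ker, Subgroup.index_ker]
  have hle : Nat.card (rootsOfUnity (2 * q) Ω) ≤ 2 * q := by
    exact card_rootsOfUnity Ω (2 * q)
  have hm : ((-1 : Ωˣ)) ∈ rootsOfUnity (2 * q) Ω := by
    rw [mem_rootsOfUnity, pow_mul]
    simp
  have hker : 2 ≤ Nat.card φ.ker := by
    have h1 : (⟨-1, hm⟩ : rootsOfUnity (2 * q) Ω) ∈ φ.ker := by
      rw [MonoidHom.mem_ker]
      funext s
      show s • (-1 : Ωˣ) / (-1 : Ωˣ) = 1
      rw [div_eq_one]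
      apply Units.ext
      show s ((-1 : Ωˣ) : Ω) = _
      simp
    have h2 : (⟨⟨-1, hm⟩, h1⟩ : φ.ker) ≠ 1 := by
      intro h
      have h3 := congrArg (fun x : φ.ker => (((x : rootsOfUnity (2 * q) Ω) : Ωˣ) : Ω)) h
      simp only [Units.val_neg, Units.val_one, OneMemClass.coe_one] at h3
      norm_num at h3
    have : Nontrivial φ.ker := ⟨_, _, h2⟩
    exact Finite.one_lt_card
  show Nat.card φ.range ≤ q
  have h3 : 2 * Nat.card φ.range ≤ 2 * q :=
    le_trans (Nat.mul_le_mul_right _ hker) (hcard ▸ hle)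
  omega

end Fermat.Agent.SEL
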