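import Mathlib
import Fermat.Agent.SEL.Hilb
import Fermat.Agent.QuadRep.RootsOfUnity

set_option autoImplicit false

/-!
# Selmer conditions and the induction step of Mazur's count
-/

open scoped Pointwise
open Fermat.Agent.Frob

namespace Fermat.Agent.SEL

-- use the algebra structures coming from `Ω`
attribute [-instance] DivisionRing.toRatAlgebra

section Defs

variable {Ω : Type*} [Field Ω] [Algebra ℚ Ω]
variable {M : Type*} [AddCommGroup M] 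

/-- `f : G → M` is *peu ramifiée* at `A`: every character of `M` turns it, on inertia, into the
Kummer cocycle of a unit. -/
def PR (A : ValuationSubring Ω) (f : (Ω ≃ₐ[ℚ] Ω) → M) : Prop :=
  ∀ lam : M →+ Additive Ωˣ, ∃ u : Ωˣ, A.valuation (u : Ω) = 1 ∧
    ∀ s ∈ A.inertiaSubgroupIn ℚ, (lam (f s)).toMul = s • u / u

theorem PR.zero (A : ValuationSubring Ω) : PR A (fun _ : (Ω ≃ₐ[ℚ] Ω) => (0 : M)) := by
  intro lam
  refine ⟨1, by simp, fun s _ => ?_⟩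
  simp

theorem PR.add {A : ValuationSubring Ω} {f g : (Ω ≃ₐ[ℚ] Ω) → M} (hf : PR A f) (hg : PR A g) :
    PR A (fun s => f s + g s) := by
  intro lam
  obtain ⟨u, hu, h1⟩ := hf lam
  obtain ⟨v, hv, h2⟩ := hg lam
  refine ⟨u * v, by rw [Units.val_mul, map_mul, hu, hv, one_mul], fun s hs => ?_⟩
  rw [map_add, toMul_add, h1 s hs, h2 s hs, smul_mul', mul_div_mul_comm]

theorem PR.neg {A : ValuationSubring Ω} {f : (Ω ≃ₐ[ℚ] Ω) → M} (hf : PR A f) :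
    PR A (fun s => - f s) := by
  intro lam
  obtain ⟨u, hu, h1⟩ := hf lam
  refine ⟨u⁻¹, by rw [Units.val_inv_eq_inv_val, map_inv₀, hu, inv_one], fun s hs => ?_⟩
  rw [map_neg, toMul_neg, h1 s hs, smul_inv', inv_div_inv, inv_div]

variable [DistribMulAction (Ω ≃ₐ[ℚ] Ω) M]

/-- The Selmer conditions. -/
structure IsSel (q N : ℕ) (Aq AN : ValuationSubring Ω) (M0 Mb : AddSubgroup M)
    (f : (Ω ≃ₐ[ℚ] Ω) → M) (m : M) : Prop where
  cocycle : ∀ s t, f (s * t) = f s + s • f t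
  cont : ∃ E : IntermediateField ℚ Ω, FiniteDimensional ℚ E ∧ ∀ s ∈ E.fixingSubgroup, f s = 0
  unr : ∀ ℓ : ℕ, ℓ.Prime → ℓ ≠ q → ℓ ≠ N → ∀ A : ValuationSubring Ω, A.LiesOverPrime ℓ →
    ∀ s ∈ A.inertiaSubgroupIn ℚ, f s = 0
  mem0 : ∀ s ∈ Aq.inertiaSubgroupIn ℚ, f s ∈ M0
  pr : PR Aq f
  dec : ∀ s ∈ AN.decompositionSubgroup ℚ, f s - (s • m - m) ∈ Mb
  inert : ∀ s ∈ AN.inertiaSubgroupIn ℚ, f s = s • m - m

/-- The group of pairs `(f, m)` with values in `M'` satisfying the Selmer conditions. -/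
def selGroup (q N : ℕ) (Aq AN : ValuationSubring Ω) (M0 Mb M' : AddSubgroup M) :
    AddSubgroup (((Ω ≃ₐ[ℚ] Ω) → M) × M) where
  carrier := {p | IsSel q N Aq AN M0 Mb p.1 p.2 ∧ (∀ s, p.1 s ∈ M') ∧ p.2 ∈ M'}
  zero_mem' := by
    refine ⟨⟨fun s t => by simp, ⟨⊥, inferInstance, fun s _ => rfl⟩, fun _ _ _ _ _ _ _ _ => rfl,
      fun s _ => zero_mem _, PR.zero Aq, fun s _ => by simp, fun s _ => by simp⟩,
      fun _ => zero_mem _, zero_mem _⟩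
  add_mem' := by
    rintro ⟨f, m⟩ ⟨g, n⟩ ⟨hf, hf1, hf2⟩ ⟨hg, hg1, hg2⟩
    dsimp only at hf hf1 hf2 hg hg1 hg2
    refine ⟨⟨fun s t => ?_, ?_, fun ℓ h1 h2 h3 A hA s hs => ?_, fun s hs => ?_, hf.pr.add hg.pr,
      fun s hs => ?_, fun s hs => ?_⟩, fun s => add_mem (hf1 s) (hg1 s), add_mem hf2 hg2⟩
    · show f (s * t) + g (s * t) = f s + g s + s • (f t + g t)
      rw [hf.cocycle, hg.cocycle, smul_add]
      abel
    · obtain ⟨E, hE, hE1⟩ := hf.cont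
      obtain ⟨E', hE', hE1'⟩ := hg.cont
      refine ⟨E ⊔ E', IntermediateField.finiteDimensional_sup E E', fun s hs => ?_⟩
      show f s + g s = 0
      rw [hE1 s (IntermediateField.fixingSubgroup_antitone le_sup_left hs),
        hE1' s (IntermediateField.fixingSubgroup_antitone le_sup_right hs), add_zero]
    · show f s + g s = 0
      rw [hf.unr ℓ h1 h2 h3 A hA s hs, hg.unr ℓ h1 h2 h3 A hA s hs, add_zero]
    · exact add_mem (hf.mem0 s hs) (hg.mem0 s hs)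
    · show f s + g s - (s • (m + n) - (m + n)) ∈ Mb
      have h := add_mem (hf.dec s hs) (hg.dec s hs)
      rw [smul_add]
      convert h using 1
      abel
    · show f s + g s = s • (m + n) - (m + n)
      rw [hf.inert s hs, hg.inert s hs, smul_add]
      abel
  neg_mem' := by
    rintro ⟨f, m⟩ ⟨hf, hf1, hf2⟩
    dsimp only at hf hf1 hf2
    refine ⟨⟨fun s t => ?_, ?_, fun ℓ h1 h2 h3 A hA s hs => ?_, fun s hs => ?_, hf.pr.neg,
      fun s hs => ?_, fun s hs => ?_⟩, fun s => neg_mem (hf1 s), neg_mem hf2⟩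
    · show - f (s * t) = - f s + s • (- f t)
      rw [hf.cocycle, smul_neg]
      abel
    · obtain ⟨E, hE, hE1⟩ := hf.cont
      refine ⟨E, hE, fun s hs => ?_⟩
      show - f s = 0
      rw [hE1 s hs, neg_zero]
    · show - f s = 0
      rw [hf.unr ℓ h1 h2 h3 A hA s hs, neg_zero]
    · exact neg_mem (hf.mem0 s hs)
    · show - f s - (s • (-m) - -m) ∈ Mb
      have h := neg_mem (hf.dec s hs)
      rw [smul_neg]
      convert h using 1
      abel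
    · show - f s = s • (-m) - -m
      rw [hf.inert s hs, smul_neg]
      abel

theorem mem_selGroup {q N : ℕ} {Aq AN : ValuationSubring Ω} {M0 Mb M' : AddSubgroup M}
    {p : ((Ω ≃ₐ[ℚ] Ω) → M) × M} : p ∈ selGroup q N Aq AN M0 Mb M' ↔
      IsSel q N Aq AN M0 Mb p.1 p.2 ∧ (∀ s, p.1 s ∈ M') ∧ p.2 ∈ M' := Iff.rfl

/-- The hypotheses on the Galois module. -/
structure SelHyp (q N : ℕ) (Aq AN : ValuationSubring Ω) (M0 : AddSubgroup M) : Prop where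
  hq : q.Prime
  hAq : Aq.LiesOverPrime q
  hAN : AN.LiesOverPrime N
  cont : ∃ E : IntermediateField ℚ Ω, FiniteDimensional ℚ E ∧
    ∀ s ∈ E.fixingSubgroup, ∀ m : M, s • m = m
  unr : ∀ ℓ : ℕ, ℓ.Prime → ℓ ≠ q → ℓ ≠ N → ∀ A : ValuationSubring Ω, A.LiesOverPrime ℓ →
    ∀ s ∈ A.inertiaSubgroupIn ℚ, ∀ m : M, s • m = m
  quo : ∀ s ∈ Aq.inertiaSubgroupIn ℚ, ∀ m : M, s • m - m ∈ M0
  cyc : ∀ s ∈ Aq.inertiaSubgroupIn ℚ, ∃ k : ℕ, (∀ ζ : Ω, ζ ^ q = 1 → s ζ = ζ ^ k) ∧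
    ∀ m ∈ M0, s • m = k • m

end Defs

section Cocycle

variable {Ω : Type*} [Field Ω] [Algebra ℚ Ω]
variable {M : Type*} [AddCommGroup M] [DistribMulAction (Ω ≃ₐ[ℚ] Ω) M]

theorem cocycle_one {f : (Ω ≃ₐ[ℚ] Ω) → M} (hf : ∀ s t, f (s * t) = f s + s • f t) : f 1 = 0 := by
  have h := hf 1 1
  rw [one_mul, one_smul] at h
  exact add_eq_left.mp h.symm

theorem cocycle_inv {f : (Ω ≃ₐ[ℚ] Ω) → M} (hf : ∀ s t, f (s * t) = f s + s • f t)
    (s : Ω ≃ₐ[ℚ] Ω) : f s⁻¹ = - (s⁻¹ • f s) := by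
  have h := hf s⁻¹ s
  rw [inv_mul_cancel, cocycle_one hf] at h
  exact eq_neg_of_add_eq_zero_left h.symm

theorem cocycle_conj_mem {f : (Ω ≃ₐ[ℚ] Ω) → M} (hf : ∀ s t, f (s * t) = f s + s • f t)
    {M1 M2 : AddSubgroup M} (h1 : ∀ s : Ω ≃ₐ[ℚ] Ω, ∀ m ∈ M1, s • m ∈ M1)
    (h2 : ∀ s : Ω ≃ₐ[ℚ] Ω, ∀ m ∈ M2, s • m ∈ M2) (hfM : ∀ s, f s ∈ M2)
    {s t : Ω ≃ₐ[ℚ] Ω} (hs : f (t⁻¹ * s * t) ∈ M1)
    (hs' : ∀ m ∈ M2, (t⁻¹ * s * t) • m - m ∈ M1) : f s ∈ M1 := by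
  set s' := t⁻¹ * s * t with hs'def
  have h3 : s = t * s' * t⁻¹ := by rw [hs'def]; group
  have h4 : f s = t • f s' - t • (s' • (t⁻¹ • f t) - t⁻¹ • f t) := by
    rw [h3, hf, hf, cocycle_inv hf, smul_neg, mul_smul, smul_sub, smul_inv_smul]
    abel
  rw [h4]
  exact sub_mem (h1 t _ hs) (h1 t _ (hs' _ (h2 _ _ (hfM t))))

end Cocycle

end Fermat.Agent.SEL
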