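import Mathlib
import Fermat.Agent.SEL.Step

set_option autoImplicit false

/-!
# The induction step of Mazur's count
-/

open scoped Pointwise
open Fermat.Agent.Frob

namespace Fermat.Agent.SEL

-- use the algebra structures coming from `Ω`
attribute [-instance] DivisionRing.toRatAlgebra

variable {Ω : Type*} [Field Ω] [Algebra ℚ Ω] [IsGalois ℚ Ω]
variable {M : Type*} [AddCommGroup M] [DistribMulAction (Ω ≃ₐ[ℚ] Ω) M]
variable {q N : ℕ} {Aq AN : ValuationSubring Ω} {M0 Mb : AddSubgroup M}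

/-- the set of reductions modulo `M1` of the Selmer cocycles with values in `M2`. -/
def redSet (q N : ℕ) (Aq AN : ValuationSubring Ω) (M0 Mb M1 M2 : AddSubgroup M) :
    Set ((Ω ≃ₐ[ℚ] Ω) → M ⧸ M1) :=
  {t | ∃ p ∈ selGroup q N Aq AN M0 Mb M2, t = fun s => QuotientAddGroup.mk (p.1 s)}

/-- Case (a): everything is unramified modulo `M1`. -/
theorem mem_of_unramified (H : SelHyp q N Aq AN M0) {M1 M2 : AddSubgroup M}
    (h1 : ∀ s : Ω ≃ₐ[ℚ] Ω, ∀ m ∈ M1, s • m ∈ M1)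
    (h2 : ∀ s : Ω ≃ₐ[ℚ] Ω, ∀ m ∈ M2, s • m ∈ M2)
    (hN : ∀ s ∈ AN.inertiaSubgroupIn ℚ, ∀ m ∈ M2, s • m - m ∈ M1)
    (h0 : M0 ⊓ M2 ≤ M1)
    {p : ((Ω ≃ₐ[ℚ] Ω) → M) × M} (hp : p ∈ selGroup q N Aq AN M0 Mb M2) (s : Ω ≃ₐ[ℚ] Ω) :
    p.1 s ∈ M1 := by
  obtain ⟨hf, hfM, hm⟩ := hp
  set f := p.1
  let K : Subgroup (Ω ≃ₐ[ℚ] Ω) :=
    { carrier := {s | f s ∈ M1}
      mul_mem' := by
        intro a b ha hb
        show f (a * b) ∈ M1
        rw [hf.cocycle]
        exact add_mem ha (h1 a _ hb)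
      one_mem' := by
        show f 1 ∈ M1
        rw [cocycle_one hf.cocycle]
        exact zero_mem _
      inv_mem' := by
        intro a ha
        show f a⁻¹ ∈ M1
        rw [cocycle_inv hf.cocycle]
        exact neg_mem (h1 _ _ ha) }
  have hK : K = ⊤ := by
    apply eq_top_of_inertia
    · obtain ⟨E, hE, hE1⟩ := hf.cont
      refine ⟨E, hE, fun s hs => ?_⟩
      show f s ∈ M1
      rw [hE1 s hs]
      exact zero_mem _
    · intro ℓ hℓ A hA s hs
      show f s ∈ M1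
      by_cases hq : ℓ = q
      · subst hq
        obtain ⟨t, ht⟩ := exists_conj_inertia hℓ H.hAq hA
        refine cocycle_conj_mem hf.cocycle h1 h2 hfM (t := t) ?_ ?_
        · exact h0 (AddSubgroup.mem_inf.mpr ⟨hf.mem0 _ (ht s hs), hfM _⟩)
        · intro m hm
          exact h0 (AddSubgroup.mem_inf.mpr ⟨H.quo _ (ht s hs) m, sub_mem (h2 _ _ hm) hm⟩)
      · by_cases hN' : ℓ = N
        · subst hN'
          obtain ⟨t, ht⟩ := exists_conj_inertia hℓ H.hAN hA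
          refine cocycle_conj_mem hf.cocycle h1 h2 hfM (t := t) ?_ ?_
          · rw [hf.inert _ (ht s hs)]
            exact hN _ (ht s hs) _ hm
          · intro m hm
            exact hN _ (ht s hs) _ hm
        · rw [hf.unr ℓ hℓ hq hN' A hA s hs]
          exact zero_mem _
  have : s ∈ K := hK ▸ Subgroup.mem_top s
  exact this

variable [IsAlgClosed Ω]

omit [IsGalois ℚ Ω] [DistribMulAction (Ω ≃ₐ[ℚ] Ω) M] in
/-- existence of a character separating a point of `M` from `M1` -/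
theorem exists_char [Finite M] (M1 : AddSubgroup M) {x : M} (hx : x ∉ M1) :
    ∃ lam : M →+ Additive Ωˣ, (∀ m ∈ M1, lam m = 0) ∧ lam x ≠ 0 := by
  have hchar : CharZero Ω := charZero_of_algebra
  let Q := Multiplicative (M ⧸ M1)
  have hfin : Finite Q := inferInstanceAs (Finite (M ⧸ M1))
  have hexp : NeZero (Monoid.exponent Q) := ⟨Monoid.exponent_ne_zero_of_finite⟩
  have hexp' : NeZero ((Monoid.exponent Q : ℕ) : Ω) := ⟨Nat.cast_ne_zero.mpr hexp.out⟩
  have hx' : (Multiplicative.ofAdd (QuotientAddGroup.mk x : M ⧸ M1) : Q) ≠ 1 := by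
    intro h
    apply hx
    rw [← QuotientAddGroup.eq_zero_iff]
    exact h
  obtain ⟨φ, hφ⟩ := CommGroup.exists_apply_ne_one_of_hasEnoughRootsOfUnity Q Ω hx'
  refine ⟨(MonoidHom.toAdditiveRight φ : M ⧸ M1 →+ Additive Ωˣ).comp (QuotientAddGroup.mk' M1), ?_, ?_⟩
  · intro m hm
    have h1 : (QuotientAddGroup.mk' M1) m = 0 := (QuotientAddGroup.eq_zero_iff m).mpr hm
    rw [AddMonoidHom.comp_apply, h1, map_zero]
  · exact hφ

omit [IsAlgClosed Ω] in
/-- equivariance of a character of `M2/M1` -/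
theorem equivariant (H : SelHyp q N Aq AN M0) {M1 M2 : AddSubgroup M}
    (h1 : ∀ s : Ω ≃ₐ[ℚ] Ω, ∀ m ∈ M1, s • m ∈ M1)
    (h2 : ∀ s : Ω ≃ₐ[ℚ] Ω, ∀ m ∈ M2, s • m ∈ M2)
    (hN : ∀ s ∈ AN.inertiaSubgroupIn ℚ, ∀ m ∈ M2, s • m - m ∈ M1)
    (hq1 : ∀ m ∈ M2, q • m ∈ M1) (hM2 : M2 ≤ M1 ⊔ M0)
    (lam : M →+ Additive Ωˣ) (hlam : ∀ m ∈ M1, lam m = 0) (s : Ω ≃ₐ[ℚ] Ω) {m : M} (hm : m ∈ M2) :
    (lam (s • m)).toMul = s • (lam m).toMul := by
  have hchar : CharZero Ω := charZero_of_algebra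
  have hqt : ∀ m ∈ M2, (((lam m).toMul : Ωˣ) : Ω) ^ q = 1 := by
    intro m hm
    have h3 := hlam _ (hq1 m hm)
    rw [map_nsmul] at h3
    have h4 := congrArg (fun u => ((Additive.toMul u : Ωˣ) : Ω)) h3
    simpa using h4
  let K : Subgroup (Ω ≃ₐ[ℚ] Ω) :=
    { carrier := {s | ∀ m ∈ M2, (lam (s • m)).toMul = s • (lam m).toMul}
      mul_mem' := by
        intro a b ha hb m hm
        rw [mul_smul, ha _ (h2 b m hm), hb m hm, mul_smul]
      one_mem' := by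
        intro m hm
        rw [one_smul, one_smul]
      inv_mem' := by
        intro a ha m hm
        have h3 := ha _ (h2 a⁻¹ m hm)
        rw [smul_inv_smul] at h3
        rw [h3, inv_smul_smul] }
  have htriv : ∀ s : Ω ≃ₐ[ℚ] Ω, ∀ m ∈ M2, s • m - m ∈ M1 → lam (s • m) = lam m := by
    intro s m hm h3
    have h4 := hlam _ h3
    rw [map_sub, sub_eq_zero] at h4
    exact h4
  have hK : K = ⊤ := by
    apply eq_top_of_inertia
    · obtain ⟨E, hE, hE1⟩ := H.cont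
      have hne : NeZero q := ⟨H.hq.ne_zero⟩
      let S : Set Ω := {ζ | ζ ^ q = 1}
      have hS : S.Finite := by
        have : S = (Polynomial.nthRootsFinset q (1 : Ω) : Set Ω) := by
          ext ζ
          simp [S, Polynomial.mem_nthRootsFinset H.hq.pos]
        rw [this]
        exact Finset.finite_toSet _
      have hSf : Finite S := hS
      have hE2 : FiniteDimensional ℚ (IntermediateField.adjoin ℚ S) :=
        IntermediateField.finiteDimensional_adjoin fun x _ => Algebra.IsIntegral.isIntegral x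
      refine ⟨E ⊔ IntermediateField.adjoin ℚ S, IntermediateField.finiteDimensional_sup _ _,
        fun s hs => ?_⟩
      intro m hm
      rw [hE1 s (IntermediateField.fixingSubgroup_antitone le_sup_left hs)]
      apply Units.ext
      have h3 := IntermediateField.fixingSubgroup_antitone
        (le_sup_right : IntermediateField.adjoin ℚ S ≤ E ⊔ IntermediateField.adjoin ℚ S) hs
      rw [IntermediateField.mem_fixingSubgroup_iff] at h3
      exact (h3 _ (IntermediateField.subset_adjoin ℚ S (hqt m hm))).symm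
    · intro ℓ hℓ A hA s hs m hm
      by_cases hq : ℓ = q
      · subst hq
        obtain ⟨t, ht⟩ := exists_conj_inertia hℓ H.hAq hA
        obtain ⟨k, hk1, hk2⟩ := H.cyc _ (ht s hs)
        have hk3 : (t⁻¹ * s * t) • (t⁻¹ • m) - k • (t⁻¹ • m) ∈ M1 := by
          obtain ⟨a, ha, b, hb, hab⟩ := AddSubgroup.mem_sup.mp (hM2 (h2 t⁻¹ m hm))
          rw [← hab, smul_add, smul_add, hk2 b hb]
          have h3 := sub_mem (h1 (t⁻¹ * s * t) a ha) (nsmul_mem ha k)
          convert h3 using 1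
          abel
        have h4 := h1 t _ hk3
        rw [smul_sub, mul_smul, mul_smul, smul_inv_smul, smul_inv_smul, smul_comm t k,
          smul_inv_smul] at h4
        have h5 := hlam _ h4
        rw [map_sub, map_nsmul, sub_eq_zero] at h5
        rw [h5, toMul_nsmul]
        apply Units.ext
        show ((((lam m).toMul : Ωˣ) : Ω)) ^ k = s (((lam m).toMul : Ωˣ) : Ω)
        have h6 := hk1 (t⁻¹ (((lam m).toMul : Ωˣ) : Ω)) (by rw [← map_pow, hqt m hm, map_one])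
        rw [AlgEquiv.mul_apply, AlgEquiv.mul_apply, ← map_pow] at h6
        have h7 : t (t⁻¹ (((lam m).toMul : Ωˣ) : Ω)) = (((lam m).toMul : Ωˣ) : Ω) :=
          smul_inv_smul t _
        rw [h7] at h6
        exact (t⁻¹.injective h6).symm
      · have hcop : q.Coprime ℓ := (Nat.coprime_primes H.hq hℓ).mpr (Ne.symm hq)
        have hroot : s • (lam m).toMul = (lam m).toMul := by
          apply Units.ext
          exact QuadRep.inertia_smul_root hℓ hA hs H.hq.pos hcop _ (hqt m hm)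
        rw [hroot]
        congr 1
        apply htriv s m hm
        by_cases hN' : ℓ = N
        · subst hN'
          obtain ⟨t, ht⟩ := exists_conj_inertia hℓ H.hAN hA
          have h3 := h1 t _ (hN _ (ht s hs) _ (h2 t⁻¹ m hm))
          rw [smul_sub, mul_smul, mul_smul, smul_inv_smul, smul_inv_smul] at h3
          exact h3
        · rw [H.unr ℓ hℓ hq hN' A hA s hs, sub_self]
          exact zero_mem _
  have : s ∈ K := hK ▸ Subgroup.mem_top s
  exact this m hm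

omit [DistribMulAction (Ω ≃ₐ[ℚ] Ω) M] [IsAlgClosed Ω] [IsGalois ℚ Ω] [Algebra ℚ Ω] in
/-- a character of `M` trivial on `M1` and not on `M2` has kernel `M1` on `M2`. -/
theorem mem_of_char (hq : q.Prime) {M1 M2 : AddSubgroup M} (h12 : M1 ≤ M2)
    (hidx : M1.relIndex M2 = q) {X : Type*} [AddCommGroup X]
    (lam : M →+ X) (hlam : ∀ m ∈ M1, lam m = 0) {x : M} (hx : x ∈ M2)
    (hlx : lam x ≠ 0) {m : M} (hm : m ∈ M2) (hm0 : lam m = 0) : m ∈ M1 := by
  let K : AddSubgroup M := lam.ker ⊓ M2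
  have h1 : M1 ≤ K := fun a ha => AddSubgroup.mem_inf.mpr ⟨hlam a ha, h12 ha⟩
  have h2 : K ≤ M2 := inf_le_right
  have h3 := AddSubgroup.relIndex_mul_relIndex M1 K M2 h1 h2
  rw [hidx] at h3
  have h4 : K.relIndex M2 ≠ 1 := by
    intro h
    rw [AddSubgroup.relIndex_eq_one] at h
    exact hlx (AddSubgroup.mem_inf.mp (h hx)).1
  have h5 : M1.relIndex K = 1 := by
    have h6 : K.relIndex M2 ∣ q := ⟨_, by rw [← h3, mul_comm]⟩
    rcases (Nat.dvd_prime hq).mp h6 with h | h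
    · exact absurd h h4
    · rw [h] at h3
      exact Nat.eq_of_mul_eq_mul_right hq.pos (by rw [one_mul]; exact h3)
  rw [AddSubgroup.relIndex_eq_one] at h5
  exact h5 (AddSubgroup.mem_inf.mpr ⟨hm0, hm⟩)

/-- Case (b) : the reductions are Kummer classes. -/
theorem redSet_le [Finite M] (hNp : N.Prime) (H : SelHyp q N Aq AN M0) {M1 M2 : AddSubgroup M}
    (h12 : M1 ≤ M2) (hidx : M1.relIndex M2 = q)
    (h1 : ∀ s : Ω ≃ₐ[ℚ] Ω, ∀ m ∈ M1, s • m ∈ M1)
    (h2 : ∀ s : Ω ≃ₐ[ℚ] Ω, ∀ m ∈ M2, s • m ∈ M2)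
    (hN : ∀ s ∈ AN.inertiaSubgroupIn ℚ, ∀ m ∈ M2, s • m - m ∈ M1)
    (hM2 : M2 ≤ M1 ⊔ M0) :
    (redSet q N Aq AN M0 Mb M1 M2).Finite ∧ Nat.card (redSet q N Aq AN M0 Mb M1 M2) ≤ q := by
  have hchar : CharZero Ω := charZero_of_algebra
  -- a point of `M2` not in `M1`
  obtain ⟨x, hx2, hx1⟩ : ∃ x ∈ M2, x ∉ M1 := by
    by_contra hcon
    push Not at hcon
    have : M1.relIndex M2 = 1 := AddSubgroup.relIndex_eq_one.mpr hcon
    rw [hidx] at this
    exact H.hq.one_lt.ne' this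
  obtain ⟨lam, hlam, hlx⟩ := exists_char (Ω := Ω) M1 hx1
  have hq1 : ∀ m ∈ M2, q • m ∈ M1 := by
    intro m hm
    have h3 := AddSubgroup.nsmul_index_mem (H := M1.addSubgroupOf M2) ⟨m, hm⟩
    rw [← AddSubgroup.relIndex, hidx, AddSubgroup.mem_addSubgroupOf] at h3
    exact h3
  have hequiv := fun s m hm => equivariant H h1 h2 hN hq1 hM2 lam hlam s (m := m) hm
  let lam' : M ⧸ M1 →+ Additive Ωˣ := QuotientAddGroup.lift M1 lam hlam
  have hlam' : ∀ m : M, lam' (QuotientAddGroup.mk m) = lam m := fun m => rfl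
  obtain ⟨hfin, hcard⟩ := finite_kummer (Ω := Ω) H.hq
  set K := Set.range fun ζ : rootsOfUnity (2 * q) Ω => fun s : Ω ≃ₐ[ℚ] Ω =>
      s • (ζ : Ωˣ) / (ζ : Ωˣ) with hK
  let Φ : ((Ω ≃ₐ[ℚ] Ω) → M ⧸ M1) → ((Ω ≃ₐ[ℚ] Ω) → Ωˣ) := fun t s => (lam' (t s)).toMul
  have hmaps : Set.MapsTo Φ (redSet q N Aq AN M0 Mb M1 M2) K := by
    rintro t ⟨⟨f, m⟩, ⟨hf, hfM, hm⟩, rfl⟩
    dsimp only at hf hfM hm
    have hqt : ∀ m ∈ M2, (lam m).toMul ^ q = 1 := by
      intro m hm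
      have h3 := hlam _ (hq1 m hm)
      rw [map_nsmul] at h3
      exact h3
    obtain ⟨ζ, hζ, hζ'⟩ := kummer_step H.hq (fun s => (lam (f s)).toMul) (by
      intro s t
      show (lam (f (s * t))).toMul = (lam (f s)).toMul * s • (lam (f t)).toMul
      rw [hf.cocycle, map_add, toMul_add, hequiv s _ (hfM t)]) (fun s => hqt _ (hfM s)) (by
      obtain ⟨E, hE, hE1⟩ := hf.cont
      refine ⟨E, hE, fun s hs => ?_⟩
      show (lam (f s)).toMul = 1
      rw [hE1 s hs, map_zero]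
      rfl) (by
      intro ℓ hℓ
      by_cases hq : ℓ = q
      · subst hq
        obtain ⟨u, hu1, hu⟩ := hf.pr lam
        exact ⟨Aq, H.hAq, u, hu1, hu⟩
      · by_cases hN' : ℓ = N
        · subst hN'
          refine ⟨AN, H.hAN, 1, by simp, fun s hs => ?_⟩
          show (lam (f s)).toMul = s • 1 / 1
          rw [hf.inert s hs, hlam _ (hN s hs m hm)]
          simp
        · obtain ⟨A, hA⟩ := exists_liesOverPrime Ω hℓ
          refine ⟨A, hA, 1, by simp, fun s hs => ?_⟩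
          show (lam (f s)).toMul = s • 1 / 1
          rw [hf.unr ℓ hℓ hq hN' A hA s hs, map_zero]
          simp)
    exact ⟨⟨ζ, (mem_rootsOfUnity _ _).mpr hζ⟩, by funext s; exact (hζ' s).symm⟩
  have hinj : Set.InjOn Φ (redSet q N Aq AN M0 Mb M1 M2) := by
    rintro t ⟨⟨f, m⟩, ⟨hf, hfM, hm⟩, rfl⟩ t' ⟨⟨f', m'⟩, ⟨hf', hfM', hm'⟩, rfl⟩ heq
    funext s
    have h3 : lam (f s) = lam (f' s) := congrFun heq s
    have h4 : lam (f' s - f s) = 0 := by rw [map_sub, h3, sub_self]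
    have h5 := mem_of_char H.hq h12 hidx lam hlam hx2 hlx (sub_mem (hfM' s) (hfM s)) h4
    show (QuotientAddGroup.mk (f s) : M ⧸ M1) = QuotientAddGroup.mk (f' s)
    rw [QuotientAddGroup.eq, neg_add_eq_sub]
    exact h5
  have hf : (redSet q N Aq AN M0 Mb M1 M2).Finite := Set.Finite.of_injOn hmaps hinj hfin
  refine ⟨hf, le_trans ?_ hcard⟩
  rw [Nat.card_coe_set_eq, Nat.card_coe_set_eq]
  exact Set.ncard_le_ncard_of_injOn Φ hmaps hinj hfin

/-- The induction step for the reductions. -/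
theorem exists_card_redSet [Finite M] (hNp : N.Prime) (H : SelHyp q N Aq AN M0)
    {M1 M2 : AddSubgroup M}
    (h12 : M1 ≤ M2) (hidx : M1.relIndex M2 = q)
    (h1 : ∀ s : Ω ≃ₐ[ℚ] Ω, ∀ m ∈ M1, s • m ∈ M1)
    (h2 : ∀ s : Ω ≃ₐ[ℚ] Ω, ∀ m ∈ M2, s • m ∈ M2)
    (hN : ∀ s ∈ AN.inertiaSubgroupIn ℚ, ∀ m ∈ M2, s • m - m ∈ M1) :
    (redSet q N Aq AN M0 Mb M1 M2).Finite ∧
    Nat.card ↥(M0 ⊓ M1) * Nat.card (redSet q N Aq AN M0 Mb M1 M2) ≤ Nat.card ↥(M0 ⊓ M2) := by
  by_cases h0 : M0 ⊓ M2 ≤ M1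
  · have hsub : redSet q N Aq AN M0 Mb M1 M2 ⊆ {0} := by
      rintro t ⟨p, hp, rfl⟩
      rw [Set.mem_singleton_iff]
      funext s
      exact (QuotientAddGroup.eq_zero_iff _).mpr (mem_of_unramified H h1 h2 hN h0 hp s)
    refine ⟨(Set.finite_singleton _).subset hsub, ?_⟩
    have h3 : Nat.card (redSet q N Aq AN M0 Mb M1 M2) ≤ 1 := by
      rw [Nat.card_coe_set_eq]
      exact le_trans (Set.ncard_le_ncard hsub (Set.finite_singleton _)) (by simp)
    have h4 : M0 ⊓ M1 ≤ M0 ⊓ M2 := inf_le_inf le_rfl h12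
    calc Nat.card ↥(M0 ⊓ M1) * Nat.card (redSet q N Aq AN M0 Mb M1 M2)
        ≤ Nat.card ↥(M0 ⊓ M1) * 1 := Nat.mul_le_mul_left _ h3
      _ = Nat.card ↥(M0 ⊓ M1) := mul_one _
      _ ≤ Nat.card ↥(M0 ⊓ M2) := AddSubgroup.card_le_of_le h4
  · have hidx2 : M1.relIndex (M0 ⊓ M2) = q := by
      have h3 : M1.relIndex (M0 ⊓ M2) ∣ q := by
        have h4 := AddSubgroup.relIndex_dvd_index_of_normal (M1.addSubgroupOf M2)
          ((M0 ⊓ M2).addSubgroupOf M2)
        rw [AddSubgroup.relIndex_addSubgroupOf (inf_le_right)] at h4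
        rw [← hidx]
        exact h4
      rcases (Nat.dvd_prime H.hq).mp h3 with h | h
      · exact absurd (AddSubgroup.relIndex_eq_one.mp h) h0
      · exact h
    have hM2 : M2 ≤ M1 ⊔ M0 := by
      have h3 : M1 ⊔ (M0 ⊓ M2) ≤ M2 := sup_le h12 inf_le_right
      have h4 := AddSubgroup.relIndex_mul_relIndex M1 (M1 ⊔ (M0 ⊓ M2)) M2 le_sup_left h3
      rw [AddSubgroup.relIndex_sup_left, hidx2, hidx] at h4
      have h5 : (M1 ⊔ (M0 ⊓ M2)).relIndex M2 = 1 :=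
        Nat.eq_of_mul_eq_mul_left H.hq.pos (by rw [mul_one]; exact h4)
      exact (AddSubgroup.relIndex_eq_one.mp h5).trans (sup_le_sup le_rfl inf_le_left)
    obtain ⟨h3, h4⟩ := redSet_le (Mb := Mb) hNp H h12 hidx h1 h2 hN hM2
    refine ⟨h3, ?_⟩
    have h5 : Nat.card ↥(M0 ⊓ M1) * q = Nat.card ↥(M0 ⊓ M2) := by
      have h6 : (M0 ⊓ M1).relIndex (M0 ⊓ M2) = q := by
        rw [← hidx2]
        have h7 : (M0 ⊓ M1) ⊓ (M0 ⊓ M2) = M1 ⊓ (M0 ⊓ M2) := by
          rw [← inf_assoc, ← inf_assoc, inf_comm M1 M0, inf_right_comm M0 M1 M0, inf_idem]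
        rw [← AddSubgroup.inf_relIndex_right, h7, AddSubgroup.inf_relIndex_right]
      have h8 := AddSubgroup.relIndex_mul_relIndex ⊥ (M0 ⊓ M1) (M0 ⊓ M2) bot_le
        (inf_le_inf le_rfl h12)
      rw [AddSubgroup.relIndex_bot_left, AddSubgroup.relIndex_bot_left, h6] at h8
      exact h8
    calc _ ≤ Nat.card ↥(M0 ⊓ M1) * q := Nat.mul_le_mul_left _ h4
      _ = _ := h5

/-- The induction step. -/
theorem step [Finite M] (hNp : N.Prime) (H : SelHyp q N Aq AN M0)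
    {M1 M2 : AddSubgroup M}
    (h12 : M1 ≤ M2) (hidx : M1.relIndex M2 = q)
    (h1 : ∀ s : Ω ≃ₐ[ℚ] Ω, ∀ m ∈ M1, s • m ∈ M1)
    (h2 : ∀ s : Ω ≃ₐ[ℚ] Ω, ∀ m ∈ M2, s • m ∈ M2)
    (hN : ∀ s ∈ AN.inertiaSubgroupIn ℚ, ∀ m ∈ M2, s • m - m ∈ M1)
    (hfin : Finite (selGroup q N Aq AN M0 Mb M1))
    (hle : Nat.card (selGroup q N Aq AN M0 Mb M1) ≤ Nat.card M1 * Nat.card ↥(M0 ⊓ M1)) :
    Finite (selGroup q N Aq AN M0 Mb M2) ∧
    Nat.card (selGroup q N Aq AN M0 Mb M2) ≤ Nat.card M2 * Nat.card ↥(M0 ⊓ M2) := by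
  obtain ⟨hT, hTc⟩ := exists_card_redSet (Mb := Mb) hNp H h12 hidx h1 h2 hN
  set Z1 := selGroup q N Aq AN M0 Mb M1 with hZ1
  set Z2 := selGroup q N Aq AN M0 Mb M2 with hZ2
  set T := redSet q N Aq AN M0 Mb M1 M2 with hTdef
  have hZ : Z1 ≤ Z2 := fun p hp => ⟨hp.1, fun s => h12 (hp.2.1 s), h12 hp.2.2⟩
  -- the map to the quotients
  let Φ : Z2 →+ (M ⧸ M1) × ((Ω ≃ₐ[ℚ] Ω) → M ⧸ M1) :=
    { toFun := fun p => (QuotientAddGroup.mk p.1.2, fun s => QuotientAddGroup.mk (p.1.1 s))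
      map_zero' := rfl
      map_add' := fun _ _ => rfl }
  have hker : Φ.ker = Z1.addSubgroupOf Z2 := by
    ext p
    rw [AddMonoidHom.mem_ker, AddSubgroup.mem_addSubgroupOf, hZ1, mem_selGroup]
    constructor
    · intro h
      refine ⟨p.2.1, fun s => ?_, ?_⟩
      · rw [← QuotientAddGroup.eq_zero_iff]
        exact congrFun (congrArg Prod.snd h) s
      · rw [← QuotientAddGroup.eq_zero_iff]
        exact congrArg Prod.fst h
    · rintro ⟨_, h3, h4⟩
      refine Prod.ext ?_ ?_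
      · exact (QuotientAddGroup.eq_zero_iff _).mpr h4
      · funext s
        exact (QuotientAddGroup.eq_zero_iff _).mpr (h3 s)
  -- the image of `M2` in `M / M1`
  let Q2 : AddSubgroup (M ⧸ M1) := M2.map (QuotientAddGroup.mk' M1)
  have hQ2 : Nat.card Q2 = q := by
    have h3 : Nat.card Q2 = M1.relIndex M2 := by
      have h4 : (⊥ : AddSubgroup (M ⧸ M1)).relIndex Q2 = M1.relIndex M2 := by
        have h5 := AddSubgroup.relIndex_comap (⊥ : AddSubgroup (M ⧸ M1)) (QuotientAddGroup.mk' M1) M2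
        have h6 : (⊥ : AddSubgroup (M ⧸ M1)).comap (QuotientAddGroup.mk' M1) = M1 := by
          have h7 := QuotientAddGroup.ker_mk' M1
          exact h7
        rw [h6] at h5
        exact h5.symm
      rw [← h4, AddSubgroup.relIndex_bot_left]
    rw [h3, hidx]
  have hrange : (Φ.range : Set ((M ⧸ M1) × ((Ω ≃ₐ[ℚ] Ω) → M ⧸ M1))) ⊆ (Q2 : Set (M ⧸ M1)) ×ˢ T := by
    rintro _ ⟨p, rfl⟩
    exact ⟨⟨p.1.2, p.2.2.2, rfl⟩, p.1, p.2, rfl⟩
  have hQfin : (Q2 : Set (M ⧸ M1)).Finite := Set.toFinite _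
  have hprodfin : ((Q2 : Set (M ⧸ M1)) ×ˢ T).Finite := hQfin.prod hT
  have hrfin : Finite Φ.range := (hprodfin.subset hrange)
  have hrcard : Nat.card Φ.range ≤ q * Nat.card T := by
    have h3 := Set.ncard_le_ncard hrange hprodfin
    rw [Set.ncard_prod, ← Nat.card_coe_set_eq, ← Nat.card_coe_set_eq (s := T),
      ← Nat.card_coe_set_eq (s := (Q2 : Set (M ⧸ M1)))] at h3
    have h4 : Nat.card (Q2 : Set (M ⧸ M1)) = q := hQ2
    rw [h4] at h3
    exact h3
  have hkerfin : Finite Φ.ker := by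
    rw [hker]
    exact Finite.of_equiv _ (AddSubgroup.addSubgroupOfEquivOfLe hZ).symm.toEquiv
  have hkercard : Nat.card Φ.ker = Nat.card Z1 := by
    rw [hker]
    exact Nat.card_congr (AddSubgroup.addSubgroupOfEquivOfLe hZ).toEquiv
  have hcard : Nat.card Z2 = Nat.card Φ.ker * Nat.card Φ.range := by
    rw [← AddSubgroup.card_mul_index Φ.ker, AddSubgroup.index_ker]
  have hfin2 : Finite Z2 := by
    apply Nat.finite_of_card_ne_zero
    rw [hcard]
    exact mul_ne_zero Nat.card_pos.ne' Nat.card_pos.ne'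
  refine ⟨hfin2, ?_⟩
  have hM2card : Nat.card M1 * q = Nat.card M2 := by
    have h8 := AddSubgroup.relIndex_mul_relIndex ⊥ M1 M2 bot_le h12
    rw [AddSubgroup.relIndex_bot_left, AddSubgroup.relIndex_bot_left, hidx] at h8
    exact h8
  calc Nat.card Z2 = Nat.card Z1 * Nat.card Φ.range := by rw [hcard, hkercard]
    _ ≤ (Nat.card M1 * Nat.card ↥(M0 ⊓ M1)) * (q * Nat.card T) := Nat.mul_le_mul hle hrcard
    _ = (Nat.card M1 * q) * (Nat.card ↥(M0 ⊓ M1) * Nat.card T) := by ring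
    _ ≤ Nat.card M2 * Nat.card ↥(M0 ⊓ M2) := by
      rw [hM2card]
      exact Nat.mul_le_mul_left _ hTc

end Fermat.Agent.SEL
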