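import Mathlib
import Fermat.Agent.SEL.Count

set_option autoImplicit false

/-!
# Mazur's count of Selmer classes

`M` is a finite module for `G = Gal(Ω/ℚ)`, `Ω` algebraically closed and algebraic over `ℚ`.

* `selGroup q N Aq AN M0 Mb ⊤` : pairs `(f, m)`, `f` a continuous cocycle unramified outside `qN`,
  with `f(I_q) ≤ M0` and `f|I_q` peu ramifiée, `f(s) - (s m - m) ∈ Mb` on the decomposition
  group of `AN` and `= 0` on its inertia group.
* `card_selGroup_le` : it has at most `#M * #M0` elements.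
* `card_quotient_le` : its quotient `H¹` by the group `cobGroup Mb` of the pairs
  `(s ↦ s a - a, a + b)`, `b ∈ Mb` satisfies `#H¹ * #Mb ≤ #H⁰ * #M0`, `H⁰ = M^G ∩ Mb`.
-/

open scoped Pointwise
open Fermat.Agent.Frob

namespace Fermat.Agent.SEL

-- use the algebra structures coming from `Ω`
attribute [-instance] DivisionRing.toRatAlgebra

variable {Ω : Type*} [Field Ω] [Algebra ℚ Ω] [IsGalois ℚ Ω] [IsAlgClosed Ω]
variable {M : Type*} [AddCommGroup M] [DistribMulAction (Ω ≃ₐ[ℚ] Ω) M]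
variable {q N : ℕ} {Aq AN : ValuationSubring Ω} {M0 Mb : AddSubgroup M}

omit [IsGalois ℚ Ω] [IsAlgClosed Ω] in
theorem selGroup_bot :
    Finite (selGroup q N Aq AN M0 Mb (⊥ : AddSubgroup M)) ∧
    Nat.card (selGroup q N Aq AN M0 Mb (⊥ : AddSubgroup M)) ≤ 1 := by
  have h : ∀ p ∈ selGroup q N Aq AN M0 Mb (⊥ : AddSubgroup M), p = 0 := by
    rintro ⟨f, m⟩ ⟨_, h1, h2⟩
    refine Prod.ext (funext fun s => ?_) ?_
    · exact AddSubgroup.mem_bot.mp (h1 s)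
    · exact AddSubgroup.mem_bot.mp h2
  have hs : Subsingleton (selGroup q N Aq AN M0 Mb (⊥ : AddSubgroup M)) :=
    ⟨fun a b => Subtype.ext (by rw [h _ a.2, h _ b.2])⟩
  exact ⟨inferInstance, Finite.card_le_one_iff_subsingleton.mpr hs⟩

/-- **Mazur's count**, version with a filtration. -/
theorem card_selGroup_le_of_filtration [Finite M] (hNp : N.Prime) (H : SelHyp q N Aq AN M0)
    (F : ℕ → AddSubgroup M) (n : ℕ) (hF0 : F 0 = ⊥)
    (hle : ∀ i < n, F i ≤ F (i + 1))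
    (hidx : ∀ i < n, F (i + 1) = F i ∨ (F i).relIndex (F (i + 1)) = q)
    (hst : ∀ i ≤ n, ∀ s : Ω ≃ₐ[ℚ] Ω, ∀ m ∈ F i, s • m ∈ F i)
    (hN : ∀ i < n, ∀ s ∈ AN.inertiaSubgroupIn ℚ, ∀ m ∈ F (i + 1), s • m - m ∈ F i) :
    Finite (selGroup q N Aq AN M0 Mb (F n)) ∧
    Nat.card (selGroup q N Aq AN M0 Mb (F n)) ≤ Nat.card (F n) * Nat.card ↥(M0 ⊓ F n) := by
  have key : ∀ i ≤ n, Finite (selGroup q N Aq AN M0 Mb (F i)) ∧
      Nat.card (selGroup q N Aq AN M0 Mb (F i)) ≤ Nat.card (F i) * Nat.card ↥(M0 ⊓ F i) := by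
    intro i
    induction i with
    | zero =>
      intro _
      rw [hF0]
      obtain ⟨h1, h2⟩ := selGroup_bot (Ω := Ω) (q := q) (N := N) (Aq := Aq) (AN := AN)
        (M0 := M0) (Mb := Mb)
      refine ⟨h1, le_trans h2 ?_⟩
      exact Nat.mul_pos Nat.card_pos Nat.card_pos
    | succ i ih =>
      intro hi
      obtain ⟨h1, h2⟩ := ih (by omega)
      rcases hidx i (by omega) with h | h
      · rw [h]
        exact ⟨h1, h2⟩
      · exact step hNp H (hle i (by omega)) h (hst i (by omega)) (hst (i + 1) hi)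
          (hN i (by omega)) h1 h2
  exact key n le_rfl

/-- **Mazur's count**, version by recursion on the submodules. -/
theorem card_selGroup_le_of_exists [Finite M] (hNp : N.Prime) (H : SelHyp q N Aq AN M0)
    (hex : ∀ M2 : AddSubgroup M, (∀ s : Ω ≃ₐ[ℚ] Ω, ∀ m ∈ M2, s • m ∈ M2) → M2 ≠ ⊥ →
      ∃ M1 ≤ M2, (∀ s : Ω ≃ₐ[ℚ] Ω, ∀ m ∈ M1, s • m ∈ M1) ∧ M1.relIndex M2 = q ∧
        ∀ s ∈ AN.inertiaSubgroupIn ℚ, ∀ m ∈ M2, s • m - m ∈ M1) (M2 : AddSubgroup M)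
    (h2 : ∀ s : Ω ≃ₐ[ℚ] Ω, ∀ m ∈ M2, s • m ∈ M2) :
    Finite (selGroup q N Aq AN M0 Mb M2) ∧
    Nat.card (selGroup q N Aq AN M0 Mb M2) ≤ Nat.card M2 * Nat.card ↥(M0 ⊓ M2) := by
  suffices h : ∀ n : ℕ, ∀ M2 : AddSubgroup M, Nat.card M2 = n →
      (∀ s : Ω ≃ₐ[ℚ] Ω, ∀ m ∈ M2, s • m ∈ M2) →
      Finite (selGroup q N Aq AN M0 Mb M2) ∧
      Nat.card (selGroup q N Aq AN M0 Mb M2) ≤ Nat.card M2 * Nat.card ↥(M0 ⊓ M2) from
    h _ M2 rfl h2
  clear h2 M2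
  intro n
  induction n using Nat.strong_induction_on with
  | _ n ih =>
    intro M2 hn h2
    by_cases hbot : M2 = ⊥
    · subst hbot
      obtain ⟨h1, h2⟩ := selGroup_bot (Ω := Ω) (q := q) (N := N) (Aq := Aq) (AN := AN)
        (M0 := M0) (Mb := Mb)
      refine ⟨h1, le_trans h2 ?_⟩
      exact Nat.mul_pos Nat.card_pos Nat.card_pos
    · obtain ⟨M1, h12, h1, hidx, hN⟩ := hex M2 h2 hbot
      have hcard : Nat.card M1 * q = Nat.card M2 := by
        have h8 := AddSubgroup.relIndex_mul_relIndex ⊥ M1 M2 bot_le h12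
        rw [AddSubgroup.relIndex_bot_left, AddSubgroup.relIndex_bot_left, hidx] at h8
        exact h8
      have hlt : Nat.card M1 < n := by
        rw [← hn, ← hcard]
        have h3 : 0 < Nat.card M1 := Nat.card_pos
        have h4 := H.hq.one_lt
        nlinarith
      obtain ⟨h3, h4⟩ := ih _ hlt M1 rfl h1
      exact step hNp H h12 hidx h1 h2 hN h3 h4

omit [IsGalois ℚ Ω] [IsAlgClosed Ω] [DistribMulAction (Ω ≃ₐ[ℚ] Ω) M] in
/-- a unipotent automorphism acts trivially on a quotient of prime order -/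
theorem sub_mem_of_unipotent (hq : q.Prime) {M1 M2 : AddSubgroup M} (h12 : M1 ≤ M2)
    (hidx : M1.relIndex M2 = q) (φ : M →+ M) (h1 : ∀ m ∈ M1, φ m ∈ M1) (h2 : ∀ m ∈ M2, φ m ∈ M2)
    (k : ℕ) (hk : ∀ m ∈ M2, (φ - AddMonoidHom.id M)^[k] m ∈ M1) {m : M} (hm : m ∈ M2) :
    φ m - m ∈ M1 := by
  -- `ψ = φ - 1`
  set ψ : M →+ M := φ - AddMonoidHom.id M with hψ
  have hψ1 : ∀ m ∈ M1, ψ m ∈ M1 := fun m hm => sub_mem (h1 m hm) hm
  have hψ2 : ∀ m ∈ M2, ψ m ∈ M2 := fun m hm => sub_mem (h2 m hm) hm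
  by_contra hcon
  -- the subgroup of `M2` of elements with `ψ m ∈ M1` is `M1`
  let K : AddSubgroup M := M1.comap ψ ⊓ M2
  have hK1 : M1 ≤ K := fun a ha => AddSubgroup.mem_inf.mpr ⟨hψ1 a ha, h12 ha⟩
  have h3 := AddSubgroup.relIndex_mul_relIndex M1 K M2 hK1 inf_le_right
  rw [hidx] at h3
  have h4 : K.relIndex M2 ≠ 1 := by
    intro h
    rw [AddSubgroup.relIndex_eq_one] at h
    exact hcon (AddSubgroup.mem_inf.mp (h hm)).1
  have h5 : M1.relIndex K = 1 := by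
    have h6 : K.relIndex M2 ∣ q := ⟨_, by rw [← h3, mul_comm]⟩
    rcases (Nat.dvd_prime hq).mp h6 with h | h
    · exact absurd h h4
    · rw [h] at h3
      exact Nat.eq_of_mul_eq_mul_right hq.pos (by rw [one_mul]; exact h3)
  rw [AddSubgroup.relIndex_eq_one] at h5
  have h6 : ∀ k : ℕ, ∀ x ∈ M2, (ψ^[k]) x ∈ M1 → x ∈ M1 := by
    intro k
    induction k with
    | zero => intro x _ hx; exact hx
    | succ k ih =>
      intro x hx hx'
      rw [Function.iterate_succ_apply] at hx'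
      exact h5 (AddSubgroup.mem_inf.mpr ⟨ih _ (hψ2 x hx) hx', hx⟩)
  have h7 : m ∈ M1 := h6 k m hm (hk m hm)
  exact hcon (hψ1 m h7)

omit [IsGalois ℚ Ω] [IsAlgClosed Ω] in
/-- unipotent elements act trivially on quotients of prime order -/
theorem smul_sub_mem_of_unipotent (hq : q.Prime) {M1 M2 : AddSubgroup M} (h12 : M1 ≤ M2)
    (hidx : M1.relIndex M2 = q) (s : Ω ≃ₐ[ℚ] Ω) (h1 : ∀ m ∈ M1, s • m ∈ M1)
    (h2 : ∀ m ∈ M2, s • m ∈ M2)
    (hk : ∀ m ∈ M2, s • (s • m - m) - (s • m - m) ∈ M1) {m : M} (hm : m ∈ M2) :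
    s • m - m ∈ M1 :=
  sub_mem_of_unipotent hq h12 hidx (DistribSMul.toAddMonoidHom M s) h1 h2 2
    (fun m hm => hk m hm) hm

section Coboundaries

/-- The group of pairs `(s ↦ s a - a, a + b)` with `b ∈ Mb`. -/
def cobGroup (Ω : Type*) [Field Ω] [Algebra ℚ Ω] {M : Type*} [AddCommGroup M]
    [DistribMulAction (Ω ≃ₐ[ℚ] Ω) M] (Mb : AddSubgroup M) :
    AddSubgroup (((Ω ≃ₐ[ℚ] Ω) → M) × M) where
  carrier := {p | ∃ a : M, ∃ b ∈ Mb, p = (fun s => s • a - a, a + b)}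
  zero_mem' := ⟨0, 0, zero_mem _, by ext <;> simp⟩
  add_mem' := by
    rintro _ _ ⟨a, b, hb, rfl⟩ ⟨a', b', hb', rfl⟩
    refine ⟨a + a', b + b', add_mem hb hb', ?_⟩
    refine Prod.ext (funext fun s => ?_) ?_
    · show s • a - a + (s • a' - a') = s • (a + a') - (a + a')
      rw [smul_add]
      abel
    · show a + b + (a' + b') = a + a' + (b + b')
      abel
  neg_mem' := by
    rintro _ ⟨a, b, hb, rfl⟩
    refine ⟨-a, -b, neg_mem hb, ?_⟩
    refine Prod.ext (funext fun s => ?_) ?_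
    · show -(s • a - a) = s • (-a) - -a
      rw [smul_neg]
      abel
    · show -(a + b) = -a + -b
      abel

/-- The group `H⁰` of invariants in `Mb`. -/
def invGroup (Ω : Type*) [Field Ω] [Algebra ℚ Ω] {M : Type*} [AddCommGroup M]
    [DistribMulAction (Ω ≃ₐ[ℚ] Ω) M] (Mb : AddSubgroup M) : AddSubgroup M where
  carrier := {m | m ∈ Mb ∧ ∀ s : Ω ≃ₐ[ℚ] Ω, s • m = m}
  zero_mem' := ⟨zero_mem _, fun s => smul_zero s⟩
  add_mem' := fun h h' => ⟨add_mem h.1 h'.1, fun s => by rw [smul_add, h.2, h'.2]⟩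
  neg_mem' := fun h => ⟨neg_mem h.1, fun s => by rw [smul_neg, h.2]⟩

omit [IsGalois ℚ Ω] [IsAlgClosed Ω] in
theorem mem_cobGroup {p : ((Ω ≃ₐ[ℚ] Ω) → M) × M} :
    p ∈ cobGroup Ω Mb ↔ ∃ a : M, ∃ b ∈ Mb, p = (fun s => s • a - a, a + b) := Iff.rfl

omit [IsGalois ℚ Ω] [IsAlgClosed Ω] in
theorem mem_invGroup {m : M} :
    m ∈ invGroup Ω Mb ↔ m ∈ Mb ∧ ∀ s : Ω ≃ₐ[ℚ] Ω, s • m = m := Iff.rfl

omit [IsGalois ℚ Ω] [IsAlgClosed Ω] in
theorem card_cobGroup :
    Nat.card (cobGroup Ω Mb) * Nat.card (invGroup Ω Mb) = Nat.card M * Nat.card Mb := by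
  let Φ : M × Mb →+ ((Ω ≃ₐ[ℚ] Ω) → M) × M :=
    { toFun := fun p => (fun s => s • p.1 - p.1, p.1 + p.2)
      map_zero' := by ext <;> simp
      map_add' := by
        intro x y
        refine Prod.ext (funext fun s => ?_) ?_
        · show s • (x.1 + y.1) - (x.1 + y.1) = s • x.1 - x.1 + (s • y.1 - y.1)
          rw [smul_add]
          abel
        · show x.1 + y.1 + ((x.2 + y.2 : Mb) : M) = x.1 + x.2 + (y.1 + y.2)
          rw [AddSubgroup.coe_add]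
          abel }
  have hrange : Φ.range = cobGroup Ω Mb := by
    ext p
    constructor
    · rintro ⟨⟨a, b⟩, rfl⟩
      exact ⟨a, b, b.2, rfl⟩
    · rintro ⟨a, b, hb, rfl⟩
      exact ⟨(a, ⟨b, hb⟩), rfl⟩
  have hker : Nat.card Φ.ker = Nat.card (invGroup Ω Mb) := by
    refine Nat.card_congr
      { toFun := fun x => ⟨x.1.1, ?_⟩
        invFun := fun x => ⟨(x.1, ⟨-x.1, neg_mem x.2.1⟩), ?_⟩
        left_inv := ?_
        right_inv := fun _ => rfl }
    · have h := AddMonoidHom.mem_ker.mp x.2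
      have h2 : x.1.1 + (x.1.2 : M) = 0 := congrArg Prod.snd h
      refine ⟨?_, fun s => ?_⟩
      · rw [eq_neg_of_add_eq_zero_left h2]
        exact neg_mem x.1.2.2
      · exact sub_eq_zero.mp (congrFun (congrArg Prod.fst h) s)
    · rw [AddMonoidHom.mem_ker]
      refine Prod.ext (funext fun s => ?_) ?_
      · show s • x.1 - x.1 = 0
        rw [x.2.2 s, sub_self]
      · show x.1 + -x.1 = 0
        exact add_neg_cancel _
    · intro x
      have h := AddMonoidHom.mem_ker.mp x.2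
      have h2 : x.1.1 + (x.1.2 : M) = 0 := congrArg Prod.snd h
      refine Subtype.ext (Prod.ext rfl (Subtype.ext ?_))
      exact (eq_neg_of_add_eq_zero_right h2).symm
  have h := AddSubgroup.card_mul_index Φ.ker
  rw [AddSubgroup.index_ker, hrange, hker, Nat.card_prod] at h
  rw [← h, mul_comm]

omit [IsGalois ℚ Ω] [IsAlgClosed Ω] in
/-- coboundaries satisfy the Selmer conditions -/
theorem cobGroup_le (H : SelHyp q N Aq AN M0)
    (hMbD : ∀ s ∈ AN.decompositionSubgroup ℚ, ∀ b ∈ Mb, s • b ∈ Mb)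
    (hMbI : ∀ s ∈ AN.inertiaSubgroupIn ℚ, ∀ b ∈ Mb, s • b = b)
    (hpr : ∀ a : M, PR Aq fun s : Ω ≃ₐ[ℚ] Ω => s • a - a) :
    cobGroup Ω Mb ≤ selGroup q N Aq AN M0 Mb ⊤ := by
  rintro _ ⟨a, b, hb, rfl⟩
  refine ⟨⟨fun s t => ?_, ?_, fun ℓ h1 h2 h3 A hA s hs => ?_, fun s hs => H.quo s hs a, hpr a,
    fun s hs => ?_, fun s hs => ?_⟩, fun _ => AddSubgroup.mem_top _, AddSubgroup.mem_top _⟩
  · show (s * t) • a - a = s • a - a + s • (t • a - a)
    rw [mul_smul, smul_sub]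
    abel
  · obtain ⟨E, hE, hE1⟩ := H.cont
    exact ⟨E, hE, fun s hs => by show s • a - a = 0; rw [hE1 s hs, sub_self]⟩
  · show s • a - a = 0
    rw [H.unr ℓ h1 h2 h3 A hA s hs, sub_self]
  · show s • a - a - (s • (a + b) - (a + b)) ∈ Mb
    have h := sub_mem hb (hMbD s hs b hb)
    rw [smul_add]
    convert h using 1
    abel
  · show s • a - a = s • (a + b) - (a + b)
    rw [smul_add, hMbI s hs b hb]
    abel

omit [IsGalois ℚ Ω] [IsAlgClosed Ω] in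
/-- **Mazur's inequality** `#H¹ * #Mb ≤ #H⁰ * #M0`. -/
theorem card_quotient_le [Finite M] (H : SelHyp q N Aq AN M0)
    (hMbD : ∀ s ∈ AN.decompositionSubgroup ℚ, ∀ b ∈ Mb, s • b ∈ Mb)
    (hMbI : ∀ s ∈ AN.inertiaSubgroupIn ℚ, ∀ b ∈ Mb, s • b = b)
    (hpr : ∀ a : M, PR Aq fun s : Ω ≃ₐ[ℚ] Ω => s • a - a)
    (hle : Nat.card (selGroup q N Aq AN M0 Mb (⊤ : AddSubgroup M)) ≤
      Nat.card (⊤ : AddSubgroup M) * Nat.card ↥(M0 ⊓ ⊤)) :
    (cobGroup Ω Mb).relIndex (selGroup q N Aq AN M0 Mb ⊤) * Nat.card Mb ≤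
      Nat.card (invGroup Ω Mb) * Nat.card M0 := by
  rw [inf_top_eq, AddSubgroup.card_top] at hle
  have hB := cobGroup_le H hMbD hMbI hpr
  have h1 := card_cobGroup (Ω := Ω) (Mb := Mb)
  have h2 := AddSubgroup.relIndex_mul_relIndex ⊥ _ _ bot_le hB
  rw [AddSubgroup.relIndex_bot_left, AddSubgroup.relIndex_bot_left] at h2
  set r := (cobGroup Ω Mb).relIndex (selGroup q N Aq AN M0 Mb ⊤)
  have hMpos : 0 < Nat.card M := Nat.card_pos
  have h3 : Nat.card M * (r * Nat.card Mb) ≤ Nat.card M * (Nat.card (invGroup Ω Mb) * Nat.card M0) := by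
    calc Nat.card M * (r * Nat.card Mb) = (Nat.card M * Nat.card Mb) * r := by ring
      _ = (Nat.card (cobGroup Ω Mb) * r) * Nat.card (invGroup Ω Mb) := by rw [← h1]; ring
      _ = Nat.card (selGroup q N Aq AN M0 Mb (⊤ : AddSubgroup M)) * Nat.card (invGroup Ω Mb) := by
        rw [h2]
      _ ≤ (Nat.card M * Nat.card M0) * Nat.card (invGroup Ω Mb) := Nat.mul_le_mul_right _ hle
      _ = _ := by ring
  exact Nat.le_of_mul_le_mul_left h3 hMpos

end Coboundaries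

/-- **Mazur's inequality**, final form: a family of Selmer pairs which are pairwise inequivalent
modulo `cobGroup` is finite, and its cardinality `c` satisfies `c * #Mb ≤ #H⁰ * #M0`. -/
theorem mazur_inequality [Finite M] (hNp : N.Prime) (H : SelHyp q N Aq AN M0)
    (hex : ∀ M2 : AddSubgroup M, (∀ s : Ω ≃ₐ[ℚ] Ω, ∀ m ∈ M2, s • m ∈ M2) → M2 ≠ ⊥ →
      ∃ M1 ≤ M2, (∀ s : Ω ≃ₐ[ℚ] Ω, ∀ m ∈ M1, s • m ∈ M1) ∧ M1.relIndex M2 = q ∧
        ∀ s ∈ AN.inertiaSubgroupIn ℚ, ∀ m ∈ M2, s • m - m ∈ M1)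
    (hMbD : ∀ s ∈ AN.decompositionSubgroup ℚ, ∀ b ∈ Mb, s • b ∈ Mb)
    (hMbI : ∀ s ∈ AN.inertiaSubgroupIn ℚ, ∀ b ∈ Mb, s • b = b)
    (hpr : ∀ a : M, PR Aq fun s : Ω ≃ₐ[ℚ] Ω => s • a - a)
    {ι : Type*} (f : ι → (Ω ≃ₐ[ℚ] Ω) → M) (m : ι → M)
    (hsel : ∀ i, IsSel q N Aq AN M0 Mb (f i) (m i))
    (hinj : ∀ i j, (f i - f j, m i - m j) ∈ cobGroup Ω Mb → i = j) :
    Finite ι ∧ Nat.card ι * Nat.card Mb ≤ Nat.card (invGroup Ω Mb) * Nat.card M0 := by
  obtain ⟨hfin, hle⟩ := card_selGroup_le_of_exists (Mb := Mb) hNp H hex ⊤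
    (fun _ _ _ => AddSubgroup.mem_top _)
  have h1 := card_quotient_le H hMbD hMbI hpr hle
  set Z := selGroup q N Aq AN M0 Mb (⊤ : AddSubgroup M)
  let φ : ι → Z ⧸ (cobGroup Ω Mb).addSubgroupOf Z := fun i =>
    QuotientAddGroup.mk ⟨(f i, m i), hsel i, fun _ => AddSubgroup.mem_top _, AddSubgroup.mem_top _⟩
  have hφ : Function.Injective φ := by
    intro i j hij
    rw [eq_comm] at hij
    have h2 := (QuotientAddGroup.eq).mp hij
    rw [AddSubgroup.mem_addSubgroupOf] at h2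
    apply hinj
    convert h2 using 1
    refine Prod.ext ?_ ?_
    · show f i - f j = - f j + f i
      abel
    · show m i - m j = - m j + m i
      abel
  have hι : Finite ι := Finite.of_injective φ hφ
  refine ⟨hι, le_trans (Nat.mul_le_mul_right _ ?_) h1⟩
  have h3 := Nat.card_le_card_of_injective φ hφ
  exact h3

end Fermat.Agent.SEL
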